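import Fermat.Agent.DefCond.Ordinary

/-!
# Ordinary deformation conditions

For odd `p`, the conjunctions of cyclotomic determinant with ordinarity and with strict ordinarity
at `p` are deformation conditions: by `isOrdinaryAt_iff` and `isStrictOrdinaryAt_iff` they are
systems of equations and congruences on matrix entries, hence stable under base change, detected by
jointly injective pairs of maps and closed for the adic topology.
-/

set_option autoImplicit false

namespace Fermat.Agent.DefCond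

open IsLocalRing GaloisRep Module
open Fermat.Agent.Deformation (GQ)

variable {A B : Type} [CommRing A] [CommRing B] {M : GQ → Matrix (Fin 2) (Fin 2) A}
  {P : ValuationSubring (AlgebraicClosure ℚ)} {σ₀ : GQ} {p : ℕ}

/-- The equations after applying `f`. -/
theorem OrdEq.of_mapped (f : A →+* B) {N : GQ → Matrix (Fin 2) (Fin 2) B}
    (hN : ∀ σ, N σ = (M σ).map f) (h : OrdEq N P σ₀) :
    f (M σ₀ - 1).det = 0 ∧
      (∀ σ ∈ P.decompositionSubgroup ℚ, ((M σ₀ - 1) * M σ * (M σ₀ - 1)).map f =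
        ((M σ₀ - 1).trace • (M σ * (M σ₀ - 1))).map f) ∧
      ∀ σ ∈ P.inertiaSubgroupIn ℚ, ((M σ₀ - 1) * (M σ - 1)).map f =
        ((M σ₀ - 1).trace • (M σ - 1)).map f := by
  have hs : ∀ (c : A) (X : Matrix (Fin 2) (Fin 2) A), (c • X).map f = f c • X.map f :=
    fun c X => by ext i j; simp
  have ht : (N σ₀ - 1).trace = f (M σ₀ - 1).trace := by rw [hN, ← map_sub_one, map_trace]
  refine ⟨?_, fun σ hσ => ?_, fun σ hσ => ?_⟩
  · rw [RingHom.map_det, RingHom.mapMatrix_apply, map_sub_one, ← hN]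
    exact h.det_eq
  · rw [Matrix.map_mul, Matrix.map_mul, hs, Matrix.map_mul, map_sub_one, ← hN, ← hN, ← ht]
    exact h.stable σ hσ
  · rw [Matrix.map_mul, hs, map_sub_one, map_sub_one, ← hN, ← hN, ← ht]
    exact h.inertia σ hσ

variable [IsLocalRing A] [IsLocalRing B]

/-- The combined condition: cyclotomic determinant and ordinary. -/
def DetOrdinary (p : ℕ) ⦃A : Type⦄ [CommRing A] [IsLocalRing A] (ρ : GaloisRepAdic A) : Prop :=
  ρ.DetIsCyclotomic p ∧ ρ.IsOrdinaryAt p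

/-- The combined condition: cyclotomic determinant and strictly ordinary. -/
def DetStrict (p : ℕ) ⦃A : Type⦄ [CommRing A] [IsLocalRing A] (ρ : GaloisRepAdic A) : Prop :=
  ρ.DetIsCyclotomic p ∧ ρ.IsStrictOrdinaryAt p

variable [Fact p.Prime] (hp2 : p ≠ 2)

include hp2

/-- Ordinarity with cyclotomic determinant is invariant under isomorphism. -/
theorem detOrdinary_iso {ρ ρ' : GaloisRepAdic A} (e : ρ.IsEquiv ρ') (h : DetOrdinary p ρ) :
    DetOrdinary p ρ' := by
  refine ⟨det_iso e h.1, ?_⟩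
  obtain ⟨e⟩ := e
  obtain ⟨b⟩ := exists_basis ρ
  rw [isOrdinaryAt_iff hp2 (det_iso ⟨e⟩ h.1) (b.map e.toLinearEquiv)]
  have := (isOrdinaryAt_iff hp2 h.1 b).mp h.2
  rw [show ⇑(repMat ρ' (b.map e.toLinearEquiv)) = ⇑(repMat ρ b) from funext (repMat_equiv e b)]
  exact this

/-- Strict ordinarity with cyclotomic determinant is invariant under isomorphism. -/
theorem detStrict_iso {ρ ρ' : GaloisRepAdic A} (e : ρ.IsEquiv ρ') (h : DetStrict p ρ) :
    DetStrict p ρ' := by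
  refine ⟨det_iso e h.1, ?_⟩
  obtain ⟨e⟩ := e
  obtain ⟨b⟩ := exists_basis ρ
  rw [isStrictOrdinaryAt_iff hp2 (det_iso ⟨e⟩ h.1) (b.map e.toLinearEquiv)]
  have := (isStrictOrdinaryAt_iff hp2 h.1 b).mp h.2
  rw [show ⇑(repMat ρ' (b.map e.toLinearEquiv)) = ⇑(repMat ρ b) from funext (repMat_equiv e b)]
  exact this

/-- Ordinarity with cyclotomic determinant is stable under base change. -/
theorem detOrdinary_map (f : A →+* B) (hf : IsLocalHom f) {ρ : GaloisRepAdic A}
    (h : DetOrdinary p ρ) : DetOrdinary p (ρ.baseChangeAlong f hf) := by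
  refine ⟨det_map f hf h.1, ?_⟩
  obtain ⟨b⟩ := exists_basis ρ
  rw [isOrdinaryAt_iff hp2 (det_map f hf h.1) (bcBasis ρ b f hf)]
  exact fun P hP σ₀ hσ₀ hμ =>
    ((isOrdinaryAt_iff hp2 h.1 b).mp h.2 P hP σ₀ hσ₀ hμ).map f (repMat_bcBasis ρ b f hf)

/-- Strict ordinarity with cyclotomic determinant is stable under base change. -/
theorem detStrict_map (f : A →+* B) (hf : IsLocalHom f) {ρ : GaloisRepAdic A}
    (h : DetStrict p ρ) : DetStrict p (ρ.baseChangeAlong f hf) := by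
  refine ⟨det_map f hf h.1, ?_⟩
  obtain ⟨b⟩ := exists_basis ρ
  rw [isStrictOrdinaryAt_iff hp2 (det_map f hf h.1) (bcBasis ρ b f hf)]
  intro P hP σ₀ hσ₀ hμ
  obtain ⟨h1, h2⟩ := (isStrictOrdinaryAt_iff hp2 h.1 b).mp h.2 P hP σ₀ hσ₀ hμ
  exact ⟨h1.map f (repMat_bcBasis ρ b f hf), h2.map f (repMat_bcBasis ρ b f hf)⟩

variable {R : Type} [CommRing R] [IsLocalRing R] [IsArtinianRing R] {τ : GaloisRepAdic R}

omit [IsArtinianRing R] in
/-- The equations of ordinarity are detected by a jointly injective pair. -/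
theorem ordEq_refl (f : R →+* A) (hf : IsLocalHom f) (g : R →+* B) (hg : IsLocalHom g)
    (h : JointlyInjective f g) (b : Basis (Fin 2) R τ.V)
    (hA : DetOrdinary p (τ.baseChangeAlong f hf)) (hB : DetOrdinary p (τ.baseChangeAlong g hg))
    {Q : ValuationSubring (AlgebraicClosure ℚ)} (hQ : Q.LiesOverPrime p) {σ₁ : GQ}
    (hσ : σ₁ ∈ Q.inertiaSubgroupIn ℚ)
    (hμ : ∀ μ : AlgebraicClosure ℚ, μ ^ p ^ 1 = 1 → σ₁ μ = μ ^ 2) :
    OrdEq (repMat τ b) Q σ₁ := by
  obtain ⟨a1, a2, a3⟩ := OrdEq.of_mapped f (repMat_bcBasis τ b f hf)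
    ((isOrdinaryAt_iff hp2 hA.1 (bcBasis τ b f hf)).mp hA.2 Q hQ σ₁ hσ hμ)
  obtain ⟨c1, c2, c3⟩ := OrdEq.of_mapped g (repMat_bcBasis τ b g hg)
    ((isOrdinaryAt_iff hp2 hB.1 (bcBasis τ b g hg)).mp hB.2 Q hQ σ₁ hσ hμ)
  exact ⟨h _ a1 c1, fun σ hs => h.matrix_eq (a2 σ hs) (c2 σ hs),
    fun σ hs => h.matrix_eq (a3 σ hs) (c3 σ hs)⟩

/-- Ordinarity with cyclotomic determinant is detected by a jointly injective pair. -/
theorem detOrdinary_refl (f : R →+* A) (hf : IsLocalHom f) (g : R →+* B) (hg : IsLocalHom g)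
    (h : JointlyInjective f g) (hA : DetOrdinary p (τ.baseChangeAlong f hf))
    (hB : DetOrdinary p (τ.baseChangeAlong g hg)) : DetOrdinary p τ := by
  obtain ⟨b⟩ := exists_basis τ
  have hdet := det_refl f hf g hg h hA.1 hB.1
  refine ⟨hdet, ?_⟩
  rw [isOrdinaryAt_iff hp2 hdet b]
  exact fun Q hQ σ₁ hσ hμ => ordEq_refl hp2 f hf g hg h b hA hB hQ hσ hμ

/-- Strict ordinarity with cyclotomic determinant is detected by a jointly injective pair. -/
theorem detStrict_refl (f : R →+* A) (hf : IsLocalHom f) (g : R →+* B) (hg : IsLocalHom g)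
    (h : JointlyInjective f g) (hA : DetStrict p (τ.baseChangeAlong f hf))
    (hB : DetStrict p (τ.baseChangeAlong g hg)) : DetStrict p τ := by
  obtain ⟨b⟩ := exists_basis τ
  have hdet := det_refl f hf g hg h hA.1 hB.1
  refine ⟨hdet, ?_⟩
  rw [isStrictOrdinaryAt_iff hp2 hdet b]
  intro Q hQ σ₁ hσ hμ
  refine ⟨ordEq_refl hp2 f hf g hg h b ⟨hA.1, hA.2.isOrdinaryAt⟩ ⟨hB.1, hB.2.isOrdinaryAt⟩ hQ hσ hμ,
    fun σ hs n a ha => ?_⟩
  refine cyclo_mem_span_of_jointlyInjective p hdet.1 h σ _ _ (fun n a ha => ?_) (fun n a ha => ?_)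
    n a ha
  · obtain ⟨e₁, e₂⟩ := strictExpr_map (σ₀ := σ₁) f (repMat_bcBasis τ b f hf) σ
    have := ((isStrictOrdinaryAt_iff hp2 hA.1 (bcBasis τ b f hf)).mp hA.2 Q hQ σ₁ hσ hμ).2 σ hs n a ha
    rwa [e₂, e₁] at this
  · obtain ⟨e₁, e₂⟩ := strictExpr_map (σ₀ := σ₁) g (repMat_bcBasis τ b g hg) σ
    have := ((isStrictOrdinaryAt_iff hp2 hB.1 (bcBasis τ b g hg)).mp hB.2 Q hQ σ₁ hσ hμ).2 σ hs n a ha
    rwa [e₂, e₁] at this

omit [IsLocalRing B] in
/-- The equations of ordinarity can be tested on the finite quotients. -/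
theorem ordEq_closed [IsNoetherianRing A] (hfin : Finite (ResidueField A)) {ρ : GaloisRepAdic A}
    (h : ∀ (I : Ideal A), Finite (A ⧸ I) → ∀ (_ : IsLocalRing (A ⧸ I))
      (hq : IsLocalHom (Ideal.Quotient.mk I)),
      DetOrdinary p (ρ.baseChangeAlong (Ideal.Quotient.mk I) hq))
    (b : Basis (Fin 2) A ρ.V) {Q : ValuationSubring (AlgebraicClosure ℚ)}
    (hQ : Q.LiesOverPrime p) {σ₁ : GQ} (hσ : σ₁ ∈ Q.inertiaSubgroupIn ℚ)
    (hμ : ∀ μ : AlgebraicClosure ℚ, μ ^ p ^ 1 = 1 → σ₁ μ = μ ^ 2) :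
    OrdEq (repMat ρ b) Q σ₁ := by
  have key : ∀ k : ℕ,
      Ideal.Quotient.mk (maximalIdeal A ^ (k + 1)) (repMat ρ b σ₁ - 1).det = 0 ∧
      (∀ σ ∈ Q.decompositionSubgroup ℚ,
        ((repMat ρ b σ₁ - 1) * repMat ρ b σ * (repMat ρ b σ₁ - 1)).map
            (Ideal.Quotient.mk (maximalIdeal A ^ (k + 1))) =
          ((repMat ρ b σ₁ - 1).trace • (repMat ρ b σ * (repMat ρ b σ₁ - 1))).map
            (Ideal.Quotient.mk (maximalIdeal A ^ (k + 1)))) ∧
      ∀ σ ∈ Q.inertiaSubgroupIn ℚ, ((repMat ρ b σ₁ - 1) * (repMat ρ b σ - 1)).map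
            (Ideal.Quotient.mk (maximalIdeal A ^ (k + 1))) =
          ((repMat ρ b σ₁ - 1).trace • (repMat ρ b σ - 1)).map
            (Ideal.Quotient.mk (maximalIdeal A ^ (k + 1))) := fun k => by
    obtain ⟨_, hq, hk⟩ := forall_quotient_pow (C := DetOrdinary p) hfin h k
    exact OrdEq.of_mapped (Ideal.Quotient.mk (maximalIdeal A ^ (k + 1)))
      (repMat_bcBasis ρ b _ hq)
      ((isOrdinaryAt_iff hp2 hk.1 (bcBasis ρ b _ hq)).mp hk.2 Q hQ σ₁ hσ hμ)
  refine ⟨eq_zero_of_forall_mem_pow fun k => Ideal.Quotient.eq_zero_iff_mem.mp (key k).1,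
    fun σ hs => Matrix.ext fun i j => sub_eq_zero.mp (eq_zero_of_forall_mem_pow fun k => ?_),
    fun σ hs => Matrix.ext fun i j => sub_eq_zero.mp (eq_zero_of_forall_mem_pow fun k => ?_)⟩
  · exact Ideal.Quotient.eq.mp (congrFun (congrFun ((key k).2.1 σ hs) i) j)
  · exact Ideal.Quotient.eq.mp (congrFun (congrFun ((key k).2.2 σ hs) i) j)

omit [IsLocalRing B] in
/-- Ordinarity with cyclotomic determinant can be tested on the finite quotients. -/
theorem detOrdinary_closed [IsNoetherianRing A] (hfin : Finite (ResidueField A))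
    {ρ : GaloisRepAdic A}
    (h : ∀ (I : Ideal A), Finite (A ⧸ I) → ∀ (_ : IsLocalRing (A ⧸ I))
      (hq : IsLocalHom (Ideal.Quotient.mk I)),
      DetOrdinary p (ρ.baseChangeAlong (Ideal.Quotient.mk I) hq)) :
    DetOrdinary p ρ := by
  obtain ⟨b⟩ := exists_basis ρ
  have hdet : ρ.DetIsCyclotomic p := det_closed hfin fun I hI _ hq => (h I hI _ hq).1
  refine ⟨hdet, (isOrdinaryAt_iff hp2 hdet b).mpr fun Q hQ σ₁ hσ hμ => ?_⟩
  exact ordEq_closed hp2 hfin h b hQ hσ hμ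

omit [IsLocalRing B] in
/-- Strict ordinarity with cyclotomic determinant can be tested on the finite quotients. -/
theorem detStrict_closed [IsNoetherianRing A] (hfin : Finite (ResidueField A))
    {ρ : GaloisRepAdic A}
    (h : ∀ (I : Ideal A), Finite (A ⧸ I) → ∀ (_ : IsLocalRing (A ⧸ I))
      (hq : IsLocalHom (Ideal.Quotient.mk I)),
      DetStrict p (ρ.baseChangeAlong (Ideal.Quotient.mk I) hq)) :
    DetStrict p ρ := by
  obtain ⟨b⟩ := exists_basis ρ
  have hdet : ρ.DetIsCyclotomic p := det_closed hfin fun I hI _ hq => (h I hI _ hq).1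
  refine ⟨hdet, (isStrictOrdinaryAt_iff hp2 hdet b).mpr fun Q hQ σ₁ hσ hμ => ?_⟩
  refine ⟨ordEq_closed hp2 hfin (fun I hI _ hq => ⟨(h I hI _ hq).1, (h I hI _ hq).2.isOrdinaryAt⟩)
    b hQ hσ hμ, fun σ hs n a ha => mem_span_of_forall fun k => ?_⟩
  obtain ⟨_, hq, hk⟩ := forall_quotient_pow (C := DetStrict p) hfin h k
  obtain ⟨e₁, e₂⟩ := strictExpr_map (σ₀ := σ₁) (Ideal.Quotient.mk (maximalIdeal A ^ (k + 1)))
    (repMat_bcBasis ρ b _ hq) σ
  have h1 := ((isStrictOrdinaryAt_iff hp2 hk.1 (bcBasis ρ b _ hq)).mp hk.2 Q hQ σ₁ hσ hμ).2 σ hs n a ha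
  rw [e₂, e₁, ← map_natCast (Ideal.Quotient.mk (maximalIdeal A ^ (k + 1))) a, ← map_mul, ← map_sub,
    ← map_natCast (Ideal.Quotient.mk (maximalIdeal A ^ (k + 1))) (p ^ n), ← Set.image_singleton,
    ← Ideal.map_span, ← Ideal.mem_comap,
    Ideal.comap_map_of_surjective _ Ideal.Quotient.mk_surjective, ← RingHom.ker_eq_comap_bot,
    Ideal.mk_ker] at h1
  exact h1

variable {𝒪 : Type} [CommRing 𝒪] [IsLocalRing 𝒪] [Finite (ResidueField 𝒪)]

omit [IsLocalRing A] [IsLocalRing B] [IsLocalRing R] [IsArtinianRing R] in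
/-- Cyclotomic determinant and ordinary at `p` is a deformation condition. -/
theorem isDeformationCondition_detOrdinary :
    IsDeformationCondition 𝒪 (fun _A _ _ _ ρ => DetOrdinary p ρ) :=
  isDeformationCondition_of (C := DetOrdinary p) (fun e h => detOrdinary_iso hp2 e h)
    (by intros; apply detOrdinary_map hp2; assumption)
    (fun f hf g hg h => detOrdinary_refl hp2 f hf g hg h)
    (by intros; apply detOrdinary_map hp2; assumption)
    (fun hfin _ => detOrdinary_closed hp2 hfin)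

omit [IsLocalRing A] [IsLocalRing B] [IsLocalRing R] [IsArtinianRing R] in
/-- Cyclotomic determinant and strictly ordinary at `p` is a deformation condition. -/
theorem isDeformationCondition_detStrict :
    IsDeformationCondition 𝒪 (fun _A _ _ _ ρ => DetStrict p ρ) :=
  isDeformationCondition_of (C := DetStrict p) (fun e h => detStrict_iso hp2 e h)
    (by intros; apply detStrict_map hp2; assumption)
    (fun f hf g hg h => detStrict_refl hp2 f hf g hg h)
    (by intros; apply detStrict_map hp2; assumption)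
    (fun hfin _ => detStrict_closed hp2 hfin)

end Fermat.Agent.DefCond
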