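import Fermat.Agent.DefCond.Simple
import Fermat.Agent.Deformation.Tangent
import Fermat.Agent.MWKummer.Finite

/-!
# Finiteness of the tangent space of conditions unramified outside a finite set

By Hermite–Minkowski the homomorphisms to a finite matrix group which are unramified outside a
finite set of primes factor through one finite Galois group. Hence a deformation condition which forces
being unramified outside such a set has a finite tangent space.
-/

set_option autoImplicit false

namespace Fermat.Agent.DefCond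

open IsLocalRing GaloisRep
open Fermat.Agent.Deformation (GQ MatRep)
open Fermat.Agent.GaloisBasics (ker_restrictK)

attribute [local instance 2000] Deformation.dualAlgebra

variable {D : Type} [CommRing D] [IsLocalRing D] [Finite D]

/-- A matrix representation is trivial on inertia outside `S`. -/
def UnramifiedOutside (S : Finset ℕ) (M : MatRep D) : Prop :=
  ∀ q : ℕ, q.Prime → q ∉ S → ∀ P : ValuationSubring (AlgebraicClosure ℚ), P.LiesOverPrime q →
    ∀ σ ∈ P.inertiaSubgroupIn ℚ, M.toHom σ = 1

/-- One subgroup of finite index is killed by all representations into `2 × 2` matrices over a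
finite ring which are unramified outside `S`. -/
theorem exists_common_kernel (S : Finset ℕ) :
    ∃ N : Subgroup GQ, N.FiniteIndex ∧
      ∀ M : MatRep D, UnramifiedOutside S M → ∀ σ ∈ N, M.toHom σ = 1 := by
  obtain ⟨L, hL, h⟩ := MWKummer.exists_finite_level (Nat.card (Matrix (Fin 2) (Fin 2) D)) S
  let L' := IntermediateField.normalClosure ℚ L (AlgebraicClosure ℚ)
  have : FiniteDimensional ℚ L' := normalClosure.is_finiteDimensional ℚ L _
  have : IsGalois ℚ L' := IsGalois.normalClosure ℚ L _
  refine ⟨L'.fixingSubgroup, ?_, fun M hM σ hσ => ?_⟩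
  · rw [← ker_restrictK]
    exact Subgroup.finiteIndex_ker _
  let H : Subgroup GQ := M.toHom.toHomUnits.ker
  have hmem : ∀ τ, τ ∈ H ↔ M.toHom τ = 1 := fun τ => by
    simp [H, MonoidHom.mem_ker]
  have : IsArtinianRing D := inferInstance
  obtain ⟨L₀, hL₀, hfix⟩ := M.exists_eq_one
  refine (hmem σ).mp (h H L₀ hL₀ (fun τ hτ => (hmem τ).mpr ?_) ?_
    (fun q hq hqS P hP τ hτ => (hmem τ).mpr (hM q hq hqS P hP τ hτ))
    (IntermediateField.fixingSubgroup_antitone L.le_normalClosure hσ))
  · exact hfix τ ((IntermediateField.mem_fixingSubgroup_iff L₀ τ).mp hτ)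
  · rw [Subgroup.index_ker]
    exact Nat.card_le_card_of_injective (fun u => ((u.1 : (Matrix (Fin 2) (Fin 2) D)ˣ) :
      Matrix (Fin 2) (Fin 2) D))
      fun u v huv => Subtype.ext (Units.ext huv)

/-- There are finitely many matrix representations over a finite ring unramified outside `S`. -/
theorem finite_unramifiedOutside (S : Finset ℕ) :
    Finite {M : MatRep D // UnramifiedOutside S M} := by
  obtain ⟨N, hN, h⟩ := exists_common_kernel (D := D) S
  have : Finite (GQ ⧸ N) := Subgroup.finite_quotient_of_finiteIndex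
  refine Finite.of_injective (fun M (c : GQ ⧸ N) => M.1.toHom c.out) fun M M' e =>
    Subtype.ext (MatRep.ext (MonoidHom.ext fun σ => ?_))
  obtain ⟨n, hn⟩ := QuotientGroup.mk_out_eq_mul N σ
  have := congrFun e (σ : GQ ⧸ N)
  simp only [hn, map_mul, h _ M.2 _ n.2, h _ M'.2 _ n.2, mul_one] at this
  exact this

variable {𝒪 : Type} [CommRing 𝒪] [IsLocalRing 𝒪]

/-- The tangent space of a condition that forces being unramified outside `S` is finite. -/
theorem tangentFinite_of_unramified [Finite (ResidueField 𝒪)]
    (ρbar : ResidualGaloisRep (ResidueField 𝒪))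
    {𝒟 : ∀ ⦃A : Type⦄ [CommRing A] [IsLocalRing A] [Algebra 𝒪 A], GaloisRepAdic A → Prop}
    (S : Finset ℕ)
    (h : ∀ ⦃A : Type⦄ [CommRing A] [IsLocalRing A] [Algebra 𝒪 A] (ρ : GaloisRepAdic A),
      𝒟 ρ → ∀ q : ℕ, q.Prime → q ∉ S → ρ.IsUnramifiedAt q) :
    TangentFinite 𝒪 ρbar 𝒟 := by
  have : Finite (DualNumber (ResidueField 𝒪)) :=
    inferInstanceAs (Finite (ResidueField 𝒪 × ResidueField 𝒪))
  have hfin := finite_unramifiedOutside (D := DualNumber (ResidueField 𝒪)) S
  have key : ∀ ρ : GaloisRepAdic (DualNumber (ResidueField 𝒪)), 𝒟 ρ →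
      ∃ M : {M : MatRep (DualNumber (ResidueField 𝒪)) // UnramifiedOutside S M},
        ρ.IsEquiv M.1.rep := fun ρ hρ => by
    obtain ⟨M, hM⟩ := MatRep.exists_rep_isEquiv ρ
    refine ⟨⟨M, fun q hq hqS P hP σ hσ => ?_⟩, hM⟩
    have h1 := unramified_iso hM (h ρ hρ q hq hqS) P hP σ hσ
    exact Matrix.toLinAlgEquiv'.injective (h1.trans (map_one _).symm)
  unfold TangentFinite
  refine Finite.of_injective
    (β := {M : MatRep (DualNumber (ResidueField 𝒪)) // UnramifiedOutside S M})
    (fun c => (key c.out.1 c.out.2.1).choose) fun c c' e => ?_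
  have h1 := (key c.out.1 c.out.2.1).choose_spec
  have h2 := (key c'.out.1 c'.out.2.1).choose_spec
  simp only at e
  rw [e] at h1
  rw [← Quotient.out_eq c, ← Quotient.out_eq c']
  exact Quotient.sound (h1.elim fun x => h2.elim fun y => ⟨x.trans y.symm⟩)

end Fermat.Agent.DefCond
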