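import Fermat.Agent.DefCond.Flat
import Fermat.Agent.DefCond.OrdinaryCond
import Fermat.Agent.DefCond.Tangent
import Fermat.Agent.S53

/-!
# The deformation conditions of the modularity theorem

The conditions `flatCondition`, `ordinaryCondition` and `strictOrdinaryCondition`, together with
unipotence at a finite set of primes, are deformation conditions with finite tangent space; so
they have universal deformation rings.
-/

set_option autoImplicit false

namespace Fermat.Agent.DefCond

open IsLocalRing GaloisRep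

variable {𝒪 : Type} [CommRing 𝒪]

/-- Deformation conditions only depend on the class of representations they cut out. -/
theorem isDeformationCondition_congr
    {𝒟 𝒟' : ∀ ⦃A : Type⦄ [CommRing A] [IsLocalRing A] [Algebra 𝒪 A], GaloisRepAdic A → Prop}
    (e : ∀ ⦃A : Type⦄ [CommRing A] [IsLocalRing A] [Algebra 𝒪 A] (ρ : GaloisRepAdic A),
      𝒟 ρ ↔ 𝒟' ρ)
    (h : IsDeformationCondition 𝒪 𝒟) : IsDeformationCondition 𝒪 𝒟' where
  of_isEquiv A _ _ _ hA _ _ he H := (e _).mp (h.of_isEquiv hA he ((e _).mpr H))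
  baseChangeAlong _ _ _ _ _ _ _ _ hA hB φ hφ _ H :=
    (e _).mp (h.baseChangeAlong hA hB φ hφ ((e _).mpr H))
  of_baseChangeAlong_injective _ _ _ _ _ _ _ _ hA hB φ hφ hinj _ H :=
    (e _).mp (h.of_baseChangeAlong_injective hA hB φ hφ hinj ((e _).mpr H))
  of_fibreProduct _ _ _ _ _ _ _ _ _ _ _ _ _ _ _ _ hA hB hC hP f g pA pB hpA hpB e1 e2 e3 _ H H' :=
    (e _).mp (h.of_fibreProduct hA hB hC hP f g pA pB hpA hpB e1 e2 e3 ((e _).mpr H) ((e _).mpr H'))
  iff_forall_surjective A _ _ _ _ _ hl hres ρ := by
    rw [← e ρ, h.iff_forall_surjective hl hres ρ]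
    exact ⟨fun H B _ _ _ hB q hq hs => (e _).mp (H hB q hq hs),
      fun H B _ _ _ hB q hq hs => (e _).mpr (H hB q hq hs)⟩

section Local

variable [IsLocalRing 𝒪] [Finite (ResidueField 𝒪)] (p : ℕ) [Fact p.Prime] (S T : Finset ℕ)

/-- `flatCondition` is a deformation condition. -/
theorem isDeformationCondition_flatCondition :
    IsDeformationCondition 𝒪 (flatCondition 𝒪 p S) :=
  isDeformationCondition_and (isDeformationCondition_det p)
    (isDeformationCondition_and (isDeformationCondition_flat p)
      (isDeformationCondition_unramifiedOutside S))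

/-- `strictOrdinaryCondition` is a deformation condition. -/
theorem isDeformationCondition_strictOrdinaryCondition (hp2 : p ≠ 2) :
    IsDeformationCondition 𝒪 (strictOrdinaryCondition 𝒪 p S) :=
  isDeformationCondition_congr (fun _ _ _ _ _ => and_assoc)
    (isDeformationCondition_and (isDeformationCondition_detStrict hp2)
      (isDeformationCondition_unramifiedOutside S))

/-- `ordinaryCondition` is a deformation condition. -/
theorem isDeformationCondition_ordinaryCondition (hp2 : p ≠ 2) :
    IsDeformationCondition 𝒪 (ordinaryCondition 𝒪 p S) :=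
  isDeformationCondition_congr (fun _ _ _ _ _ => and_assoc)
    (isDeformationCondition_and (isDeformationCondition_detOrdinary hp2)
      (isDeformationCondition_unramifiedOutside S))

/-- Flat, with unipotent inertia at the primes of `T`. -/
theorem isDeformationCondition_flat_unipotent :
    IsDeformationCondition 𝒪 (fun _A _ _ _ ρ =>
      flatCondition 𝒪 p S ρ ∧ ∀ q ∈ T, q.Prime → q ≠ p → ρ.IsUnipotentOnInertiaAt q) :=
  isDeformationCondition_and (isDeformationCondition_flatCondition p S)
    (isDeformationCondition_unipotentOn p T)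

/-- Strictly ordinary, with unipotent inertia at the primes of `T`. -/
theorem isDeformationCondition_strict_unipotent (hp2 : p ≠ 2) :
    IsDeformationCondition 𝒪 (fun _A _ _ _ ρ =>
      strictOrdinaryCondition 𝒪 p S ρ ∧ ∀ q ∈ T, q.Prime → q ≠ p → ρ.IsUnipotentOnInertiaAt q) :=
  isDeformationCondition_and (isDeformationCondition_strictOrdinaryCondition p S hp2)
    (isDeformationCondition_unipotentOn p T)

/-- Ordinary, with unipotent inertia at the primes of `T`. -/
theorem isDeformationCondition_ordinary_unipotent (hp2 : p ≠ 2) :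
    IsDeformationCondition 𝒪 (fun _A _ _ _ ρ =>
      ordinaryCondition 𝒪 p S ρ ∧ ∀ q ∈ T, q.Prime → q ≠ p → ρ.IsUnipotentOnInertiaAt q) :=
  isDeformationCondition_and (isDeformationCondition_ordinaryCondition p S hp2)
    (isDeformationCondition_unipotentOn p T)

/-- Flat and ordinary, with unipotent inertia at the primes of `T`. -/
theorem isDeformationCondition_flatOrdinary_unipotent (hp2 : p ≠ 2) :
    IsDeformationCondition 𝒪 (fun _A _ _ _ ρ =>
      (flatCondition 𝒪 p S ρ ∧ ρ.IsOrdinaryAt p) ∧
        ∀ q ∈ T, q.Prime → q ≠ p → ρ.IsUnipotentOnInertiaAt q) :=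
  isDeformationCondition_congr
    (fun _ _ _ _ _ => ⟨fun h => ⟨⟨h.1.1, h.1.2.2⟩, h.2⟩, fun h => ⟨⟨h.1.1, h.1.1.1, h.1.2⟩, h.2⟩⟩)
    (isDeformationCondition_and
      (isDeformationCondition_and (isDeformationCondition_flatCondition p S)
        (isDeformationCondition_detOrdinary hp2))
      (isDeformationCondition_unipotentOn p T))

variable (ρbar : ResidualGaloisRep (ResidueField 𝒪))

omit [Fact p.Prime] in
/-- The flat condition with unipotent inertia at `T` has finite tangent space. -/
theorem tangentFinite_flat_unipotent :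
    TangentFinite 𝒪 ρbar (fun _A _ _ _ ρ =>
      flatCondition 𝒪 p S ρ ∧ ∀ q ∈ T, q.Prime → q ≠ p → ρ.IsUnipotentOnInertiaAt q) :=
  tangentFinite_of_unramified ρbar S fun _ _ _ _ _ h => h.1.2.2

omit [Fact p.Prime] in
/-- The strictly ordinary condition with unipotent inertia at `T` has finite tangent space. -/
theorem tangentFinite_strict_unipotent :
    TangentFinite 𝒪 ρbar (fun _A _ _ _ ρ =>
      strictOrdinaryCondition 𝒪 p S ρ ∧ ∀ q ∈ T, q.Prime → q ≠ p → ρ.IsUnipotentOnInertiaAt q) :=
  tangentFinite_of_unramified ρbar S fun _ _ _ _ _ h => h.1.2.2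

omit [Fact p.Prime] in
/-- The ordinary condition with unipotent inertia at `T` has finite tangent space. -/
theorem tangentFinite_ordinary_unipotent :
    TangentFinite 𝒪 ρbar (fun _A _ _ _ ρ =>
      ordinaryCondition 𝒪 p S ρ ∧ ∀ q ∈ T, q.Prime → q ≠ p → ρ.IsUnipotentOnInertiaAt q) :=
  tangentFinite_of_unramified ρbar S fun _ _ _ _ _ h => h.1.2.2

omit [Fact p.Prime] in
/-- The flat and ordinary condition with unipotent inertia at `T` has finite tangent space. -/
theorem tangentFinite_flatOrdinary_unipotent :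
    TangentFinite 𝒪 ρbar (fun _A _ _ _ ρ =>
      (flatCondition 𝒪 p S ρ ∧ ρ.IsOrdinaryAt p) ∧
        ∀ q ∈ T, q.Prime → q ≠ p → ρ.IsUnipotentOnInertiaAt q) :=
  tangentFinite_of_unramified ρbar S fun _ _ _ _ _ h => h.1.1.2.2

end Local

section Ring

variable [IsDomain 𝒪] [IsDiscreteValuationRing 𝒪] [IsAdicComplete (maximalIdeal 𝒪) 𝒪]
  [Finite (ResidueField 𝒪)] (p : ℕ) [Fact p.Prime] (S T : Finset ℕ)
  (ρbar : ResidualGaloisRep (ResidueField 𝒪))

/-- The universal ring for flat deformations with unipotent inertia at the primes of `T`. -/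
theorem nonempty_ringData_flat (habs : ρbar.IsAbsolutelyIrreducible)
    (hbar : flatCondition 𝒪 p S (GaloisRepAdic.ofResidualGaloisRep ρbar) ∧
      ∀ q ∈ T, q.Prime → q ≠ p →
        (GaloisRepAdic.ofResidualGaloisRep ρbar).IsUnipotentOnInertiaAt q) :
    Nonempty (DeformationRingData 𝒪 ρbar (fun _A _ _ _ ρ =>
      flatCondition 𝒪 p S ρ ∧ ∀ q ∈ T, q.Prime → q ≠ p → ρ.IsUnipotentOnInertiaAt q)) :=
  S53.result 𝒪 ρbar _ habs (isDeformationCondition_flat_unipotent p S T) hbar
    (tangentFinite_flat_unipotent p S T ρbar)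

/-- The universal ring for flat and ordinary deformations with unipotent inertia at the primes of
`T`. -/
theorem nonempty_ringData_flatOrdinary (hp2 : p ≠ 2) (habs : ρbar.IsAbsolutelyIrreducible)
    (hbar : (flatCondition 𝒪 p S (GaloisRepAdic.ofResidualGaloisRep ρbar) ∧
      (GaloisRepAdic.ofResidualGaloisRep ρbar).IsOrdinaryAt p) ∧
      ∀ q ∈ T, q.Prime → q ≠ p →
        (GaloisRepAdic.ofResidualGaloisRep ρbar).IsUnipotentOnInertiaAt q) :
    Nonempty (DeformationRingData 𝒪 ρbar (fun _A _ _ _ ρ =>
      (flatCondition 𝒪 p S ρ ∧ ρ.IsOrdinaryAt p) ∧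
        ∀ q ∈ T, q.Prime → q ≠ p → ρ.IsUnipotentOnInertiaAt q)) :=
  S53.result 𝒪 ρbar _ habs (isDeformationCondition_flatOrdinary_unipotent p S T hp2) hbar
    (tangentFinite_flatOrdinary_unipotent p S T ρbar)

/-- The universal ring for strictly ordinary deformations with unipotent inertia at the primes of
`T`. -/
theorem nonempty_ringData_strict (hp2 : p ≠ 2) (habs : ρbar.IsAbsolutelyIrreducible)
    (hbar : strictOrdinaryCondition 𝒪 p S (GaloisRepAdic.ofResidualGaloisRep ρbar) ∧
      ∀ q ∈ T, q.Prime → q ≠ p →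
        (GaloisRepAdic.ofResidualGaloisRep ρbar).IsUnipotentOnInertiaAt q) :
    Nonempty (DeformationRingData 𝒪 ρbar (fun _A _ _ _ ρ =>
      strictOrdinaryCondition 𝒪 p S ρ ∧ ∀ q ∈ T, q.Prime → q ≠ p → ρ.IsUnipotentOnInertiaAt q)) :=
  S53.result 𝒪 ρbar _ habs (isDeformationCondition_strict_unipotent p S T hp2) hbar
    (tangentFinite_strict_unipotent p S T ρbar)

end Ring

end Fermat.Agent.DefCond
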