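import Fermat.Prelude.Def_GaloisRep_DeformationCondition
import Fermat.Prelude.Def_GaloisRep_LocalConditions
import Fermat.Agent.Deformation.MatrixRep
import Fermat.Agent.Deformation.TestAlgebra
import Mathlib.RingTheory.RootsOfUnity.AlgebraicallyClosed
import Mathlib.LinearAlgebra.Charpoly.ToMatrix

/-!
# Deformation conditions given by equations on the matrix entries

A condition on two-dimensional representations which is invariant under isomorphism, stable under
base change, detected by jointly injective pairs of maps between artinian rings and closed for the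
adic topology is a deformation condition.
-/

set_option autoImplicit false

namespace Fermat.Agent.DefCond

open IsLocalRing GaloisRep Module
open Fermat.Agent.Deformation (GQ)

variable {A B : Type} [CommRing A] [IsLocalRing A] [CommRing B] [IsLocalRing B]

/-- The matrices of a representation in a basis. -/
noncomputable def repMat (ρ : GaloisRepAdic A) (b : Basis (Fin 2) A ρ.V) :
    GQ →* Matrix (Fin 2) (Fin 2) A :=
  (LinearMap.toMatrixAlgEquiv b).toAlgHom.toMonoidHom.comp ρ.ρ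

/-- The matrix of `σ` is that of `ρ σ` in the basis. -/
theorem repMat_apply (ρ : GaloisRepAdic A) (b : Basis (Fin 2) A ρ.V) (σ : GQ) :
    repMat ρ b σ = LinearMap.toMatrix b b (ρ.ρ σ) := rfl

/-- A representation has a basis indexed by `Fin 2`. -/
theorem exists_basis (ρ : GaloisRepAdic A) : Nonempty (Basis (Fin 2) A ρ.V) :=
  ⟨Module.finBasisOfFinrankEq A ρ.V ρ.finrank_eq⟩

/-- The basis of a base change. -/
noncomputable def bcBasis (ρ : GaloisRepAdic A) (b : Basis (Fin 2) A ρ.V) (φ : A →+* B)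
    (hφ : IsLocalHom φ) : Basis (Fin 2) B (ρ.baseChangeAlong φ hφ).V :=
  letI : Algebra A B := φ.toAlgebra
  Algebra.TensorProduct.basis B b

/-- The matrices of a base change are the images of the matrices. -/
theorem repMat_bcBasis (ρ : GaloisRepAdic A) (b : Basis (Fin 2) A ρ.V) (φ : A →+* B)
    (hφ : IsLocalHom φ) (σ : GQ) :
    repMat (ρ.baseChangeAlong φ hφ) (bcBasis ρ b φ hφ) σ = (repMat ρ b σ).map φ :=
  let _ : Algebra A B := φ.toAlgebra
  LinearMap.toMatrix_baseChange _ (ρ.ρ σ) b b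

/-- Equivalent representations have the same matrices in corresponding bases. -/
theorem repMat_equiv {ρ ρ' : GaloisRepAdic A} (e : GaloisRepAdic.Equiv ρ ρ')
    (b : Basis (Fin 2) A ρ.V) (σ : GQ) :
    repMat ρ' (b.map e.toLinearEquiv) σ = repMat ρ b σ := by
  refine Matrix.ext fun i j => ?_
  rw [repMat_apply, repMat_apply, LinearMap.toMatrix_apply, LinearMap.toMatrix_apply,
    Basis.map_repr, LinearEquiv.trans_apply, Basis.map_apply, ← e.map_apply,
    LinearEquiv.symm_apply_apply]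

/-- A change of basis conjugates the matrices by one invertible matrix. -/
theorem repMat_change (ρ : GaloisRepAdic A) (b b' : Basis (Fin 2) A ρ.V) :
    ∃ g : (Matrix (Fin 2) (Fin 2) A)ˣ, ∀ σ,
      repMat ρ b' σ = g * repMat ρ b σ * (↑g⁻¹ : Matrix (Fin 2) (Fin 2) A) := by
  refine ⟨⟨b'.toMatrix b, b.toMatrix b', Basis.toMatrix_mul_toMatrix_flip _ _,
    Basis.toMatrix_mul_toMatrix_flip _ _⟩, fun σ => ?_⟩
  exact (basis_toMatrix_mul_linearMap_toMatrix_mul_basis_toMatrix b' b b' b (ρ.ρ σ)).symm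

/-- An exponent of `σ` on the roots of unity of order dividing `p ^ n`. -/
theorem exists_exponent (p : ℕ) [Fact p.Prime] (σ : GQ) (n : ℕ) :
    ∃ a : ℕ, ∀ μ : AlgebraicClosure ℚ, μ ^ p ^ n = 1 → σ μ = μ ^ a := by
  have : NeZero (p ^ n) := ⟨pow_ne_zero _ (Fact.out (p := p.Prime)).ne_zero⟩
  obtain ⟨ζ, hζ⟩ := HasEnoughRootsOfUnity.exists_primitiveRoot (AlgebraicClosure ℚ) (p ^ n)
  have h : (σ ζ) ^ p ^ n = 1 := by rw [← map_pow, hζ.pow_eq_one, map_one]
  obtain ⟨a, -, ha⟩ := hζ.eq_pow_of_pow_eq_one h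
  refine ⟨a, fun μ hμ => ?_⟩
  obtain ⟨i, -, rfl⟩ := hζ.eq_pow_of_pow_eq_one hμ
  rw [map_pow, ← ha, ← pow_mul, ← pow_mul, mul_comm]

/-- Two exponents of the same automorphism agree modulo `p ^ n`. -/
theorem exponent_modEq (p : ℕ) [Fact p.Prime] (σ : GQ) {n N a a' : ℕ} (hn : n ≤ N)
    (ha : ∀ μ : AlgebraicClosure ℚ, μ ^ p ^ n = 1 → σ μ = μ ^ a)
    (ha' : ∀ μ : AlgebraicClosure ℚ, μ ^ p ^ N = 1 → σ μ = μ ^ a') :
    ((p ^ n : ℕ) : ℤ) ∣ (a' : ℤ) - a := by
  have : NeZero (p ^ n) := ⟨pow_ne_zero _ (Fact.out (p := p.Prime)).ne_zero⟩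
  obtain ⟨ζ, hζ⟩ := HasEnoughRootsOfUnity.exists_primitiveRoot (AlgebraicClosure ℚ) (p ^ n)
  have h' : ζ ^ p ^ N = 1 := by
    obtain ⟨d, rfl⟩ := Nat.exists_eq_add_of_le hn
    rw [pow_add, pow_mul, hζ.pow_eq_one, one_pow]
  have h1 : ζ ^ a = ζ ^ a' := (ha ζ hζ.pow_eq_one).symm.trans (ha' ζ h')
  rw [(hζ.isOfFinOrder (NeZero.ne _)).pow_eq_pow_iff_modEq, ← hζ.eq_orderOf] at h1
  exact Nat.modEq_iff_dvd.mp h1

/-- Homomorphisms detecting equality. -/
def JointlyInjective {P : Type} [CommRing P] (f : P →+* A) (g : P →+* B) : Prop :=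
  ∀ x, f x = 0 → g x = 0 → x = 0

omit [IsLocalRing A] [IsLocalRing B] in
/-- A jointly injective pair detects equality. -/
theorem JointlyInjective.eq {P : Type} [CommRing P] {f : P →+* A} {g : P →+* B}
    (h : JointlyInjective f g) {x y : P} (hf : f x = f y) (hg : g x = g y) : x = y :=
  sub_eq_zero.mp (h _ (by rw [map_sub, hf, sub_self]) (by rw [map_sub, hg, sub_self]))

omit [IsLocalRing A] [IsLocalRing B] in
/-- A jointly injective pair detects equality of matrices. -/
theorem JointlyInjective.matrix_eq {P : Type} [CommRing P] {f : P →+* A} {g : P →+* B}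
    (h : JointlyInjective f g) {x y : Matrix (Fin 2) (Fin 2) P} (hf : x.map f = y.map f)
    (hg : x.map g = y.map g) : x = y :=
  Matrix.ext fun i j => h.eq (congrFun (congrFun hf i) j) (congrFun (congrFun hg i) j)

omit [IsLocalRing A] [IsLocalRing B] in
/-- A congruence against the cyclotomic exponents is detected by a jointly injective pair. -/
theorem cyclo_mem_span_of_jointlyInjective (p : ℕ) [Fact p.Prime] {P : Type} [CommRing P]
    [IsLocalRing P] [IsArtinianRing P] (hp : (p : P) ∈ maximalIdeal P) {f : P →+* A}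
    {g : P →+* B} (h : JointlyInjective f g) (σ : GQ) (x z : P)
    (hA : ∀ n a : ℕ, (∀ μ : AlgebraicClosure ℚ, μ ^ p ^ n = 1 → σ μ = μ ^ a) →
      f x - (a : A) * f z ∈ Ideal.span {((p ^ n : ℕ) : A)})
    (hB : ∀ n a : ℕ, (∀ μ : AlgebraicClosure ℚ, μ ^ p ^ n = 1 → σ μ = μ ^ a) →
      g x - (a : B) * g z ∈ Ideal.span {((p ^ n : ℕ) : B)})
    (n a : ℕ) (ha : ∀ μ : AlgebraicClosure ℚ, μ ^ p ^ n = 1 → σ μ = μ ^ a) :
    x - (a : P) * z ∈ Ideal.span {((p ^ n : ℕ) : P)} := by
  obtain ⟨m, hm⟩ := Deformation.exists_pow_maximalIdeal_eq_bot (A := P)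
  have hpm : ((p ^ (n + m) : ℕ) : P) = 0 := by
    rw [Nat.cast_pow, pow_add, Ideal.mem_bot.mp (show (p : P) ^ m ∈ (⊥ : Ideal P) by
      rw [← hm]; exact Ideal.pow_mem_pow hp m), mul_zero]
  obtain ⟨a', ha'⟩ := exists_exponent p σ (n + m)
  have h1 : x = (a' : P) * z := by
    refine h.eq ?_ ?_
    · have := hA _ a' ha'
      rw [← map_natCast f (p ^ (n + m)), hpm, map_zero, Ideal.mem_span_singleton, zero_dvd_iff,
        sub_eq_zero] at this
      rw [this, map_mul, map_natCast]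
    · have := hB _ a' ha'
      rw [← map_natCast g (p ^ (n + m)), hpm, map_zero, Ideal.mem_span_singleton, zero_dvd_iff,
        sub_eq_zero] at this
      rw [this, map_mul, map_natCast]
  obtain ⟨t, ht⟩ := exponent_modEq p σ (Nat.le_add_right n m) ha ha'
  refine Ideal.mem_span_singleton'.mpr ⟨(t : P) * z, ?_⟩
  have ht' : (a' : P) - (a : P) = ((p ^ n : ℕ) : P) * (t : P) := by
    have := congrArg (fun w : ℤ => (w : P)) ht
    simpa using this
  rw [h1]
  linear_combination -z * ht'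

section Complete

/-- Equality can be tested modulo all powers of the maximal ideal. -/
theorem eq_zero_of_forall_mem_pow [IsNoetherianRing A] {x : A}
    (h : ∀ k : ℕ, x ∈ maximalIdeal A ^ (k + 1)) : x = 0 := by
  refine IsHausdorff.haus (I := maximalIdeal A) inferInstance x fun k => ?_
  rw [SModEq.zero, smul_eq_mul, Ideal.mul_top]
  exact Ideal.pow_le_pow_right (Nat.le_succ k) (h k)

/-- Principal ideals are closed. -/
theorem mem_span_of_forall [IsNoetherianRing A] {x y : A}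
    (h : ∀ k : ℕ, x ∈ Ideal.span {y} ⊔ maximalIdeal A ^ (k + 1)) : x ∈ Ideal.span {y} := by
  by_cases hy : IsUnit y
  · rw [Ideal.span_singleton_eq_top.mpr hy]
    exact Submodule.mem_top
  have : Nontrivial (A ⧸ Ideal.span {y}) := Ideal.Quotient.nontrivial_iff.mpr fun htop =>
    hy (Ideal.span_singleton_eq_top.mp htop)
  have hl : IsLocalRing (A ⧸ Ideal.span {y}) :=
    .of_surjective' (Ideal.Quotient.mk _) Ideal.Quotient.mk_surjective
  have hloc : IsLocalHom (Ideal.Quotient.mk (Ideal.span {y})) :=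
    .of_surjective _ Ideal.Quotient.mk_surjective
  rw [← Ideal.Quotient.eq_zero_iff_mem]
  refine eq_zero_of_forall_mem_pow fun k => ?_
  obtain ⟨u, hu, v, hv, rfl⟩ := Submodule.mem_sup.mp (h k)
  rw [map_add, Ideal.Quotient.eq_zero_iff_mem.mpr hu, zero_add]
  exact Deformation.MatRep.pow_maximalIdeal_map_mem _ hloc _ hv

variable {𝒪 : Type} [CommRing 𝒪] [IsLocalRing 𝒪] [Finite (ResidueField 𝒪)] [Algebra 𝒪 A]

omit [IsLocalRing 𝒪] [Finite (ResidueField 𝒪)] in
/-- The artinian quotients of a complete test ring are test algebras. -/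
theorem isArtinianTestAlgebra_quotient [IsNoetherianRing A] (hl : IsLocalHom (algebraMap 𝒪 A))
    (hres : Function.Surjective (residue A ∘ algebraMap 𝒪 A)) (I : Ideal A) [Finite (A ⧸ I)]
    [IsLocalRing (A ⧸ I)] : IsArtinianTestAlgebra 𝒪 (A ⧸ I) := by
  have hloc : IsLocalHom (Ideal.Quotient.mk I) :=
    .of_surjective _ Ideal.Quotient.mk_surjective
  refine Deformation.isArtinianTestAlgebra_of_finite ⟨fun a ha => ?_⟩ fun x => ?_
  · exact hl.map_nonunit a (hloc.map_nonunit _ ha)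
  · obtain ⟨y, rfl⟩ := Ideal.Quotient.mk_surjective x
    obtain ⟨a, ha⟩ := hres (residue A y)
    refine ⟨a, fun h => (Ideal.Quotient.eq.mp ha.symm) (hloc.map_nonunit _ ?_)⟩
    rw [map_sub]
    exact h

end Complete

variable {𝒪 : Type} [CommRing 𝒪] [IsLocalRing 𝒪]

/-- A criterion for deformation conditions. -/
theorem isDeformationCondition_of [Finite (ResidueField 𝒪)]
    {C : ∀ ⦃A : Type⦄ [CommRing A] [IsLocalRing A], GaloisRepAdic A → Prop}
    (hiso : ∀ {A : Type} [CommRing A] [IsLocalRing A] [Finite A] {ρ ρ' : GaloisRepAdic A},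
      ρ.IsEquiv ρ' → C ρ → C ρ')
    (hmap : ∀ {A B : Type} [CommRing A] [IsLocalRing A] [Finite A] [CommRing B] [IsLocalRing B]
      [Finite B] (f : A →+* B) (hf : IsLocalHom f) {ρ : GaloisRepAdic A},
      C ρ → C (ρ.baseChangeAlong f hf))
    (hrefl : ∀ {P A B : Type} [CommRing P] [IsLocalRing P] [Finite P] [CommRing A] [IsLocalRing A]
      [Finite A] [CommRing B] [IsLocalRing B] [Finite B] (f : P →+* A) (hf : IsLocalHom f)
      (g : P →+* B) (hg : IsLocalHom g), JointlyInjective f g → ∀ {ρ : GaloisRepAdic P},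
      C (ρ.baseChangeAlong f hf) → C (ρ.baseChangeAlong g hg) → C ρ)
    (hquot : ∀ {A B : Type} [CommRing A] [IsLocalRing A] [CommRing B] [IsLocalRing B] [Finite B]
      (f : A →+* B) (hf : IsLocalHom f), Function.Surjective f → Finite (ResidueField A) →
      ∀ {ρ : GaloisRepAdic A}, C ρ → C (ρ.baseChangeAlong f hf))
    (hclosed : ∀ {A : Type} [CommRing A] [IsLocalRing A] [IsNoetherianRing A]
      [IsAdicComplete (maximalIdeal A) A], Finite (ResidueField A) → ∀ {ρ : GaloisRepAdic A},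
      (∀ (I : Ideal A), Finite (A ⧸ I) → ∀ (_ : IsLocalRing (A ⧸ I))
        (hq : IsLocalHom (Ideal.Quotient.mk I)), C (ρ.baseChangeAlong (Ideal.Quotient.mk I) hq)) →
      C ρ) :
    IsDeformationCondition 𝒪 (fun _A _ _ _ ρ => C ρ) where
  of_isEquiv A _ _ _ hA ρ ρ' h := by
    have := Deformation.finite_of_isArtinianTestAlgebra hA
    exact hiso h
  baseChangeAlong A B _ _ _ _ _ _ hA hB φ hφ ρ h := by
    have := Deformation.finite_of_isArtinianTestAlgebra hA
    have := Deformation.finite_of_isArtinianTestAlgebra hB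
    exact hmap _ hφ h
  of_baseChangeAlong_injective A B _ _ _ _ _ _ hA hB φ hφ hinj ρ h := by
    have := Deformation.finite_of_isArtinianTestAlgebra hA
    have := Deformation.finite_of_isArtinianTestAlgebra hB
    exact hrefl _ hφ _ hφ (fun x hx _ => hinj (hx.trans (map_zero φ).symm)) h h
  of_fibreProduct A B C' P _ _ _ _ _ _ _ _ _ _ _ _ hA hB _ hP f g pA pB hpA hpB _ hinj _ ρ hρA hρB := by
    have := Deformation.finite_of_isArtinianTestAlgebra hA
    have := Deformation.finite_of_isArtinianTestAlgebra hB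
    have := Deformation.finite_of_isArtinianTestAlgebra hP
    refine hrefl _ hpA _ hpB (fun x hxA hxB => hinj ?_) hρA hρB
    simp only [map_zero]
    exact Prod.ext hxA hxB
  iff_forall_surjective A _ _ _ _ _ hl hres ρ := by
    have hfinA : Finite (ResidueField A) :=
      haveI := hl
      Finite.of_surjective (ResidueField.map (algebraMap 𝒪 A)) fun y => by
        obtain ⟨a, ha⟩ := hres y
        exact ⟨residue 𝒪 a, (ResidueField.map_residue _ a).trans ha⟩
    refine ⟨fun h B _ _ _ hB q hq hsurj => ?_, fun h => hclosed hfinA fun I hI _ hq => ?_⟩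
    · have := Deformation.finite_of_isArtinianTestAlgebra hB
      exact hquot _ hq hsurj hfinA h
    · exact h (isArtinianTestAlgebra_quotient hl hres I) (Ideal.Quotient.mkₐ 𝒪 I) hq
        Ideal.Quotient.mk_surjective

omit [IsLocalRing 𝒪] in
/-- Conjunctions of deformation conditions. -/
theorem isDeformationCondition_and
    {𝒟 𝒟' : ∀ ⦃A : Type⦄ [CommRing A] [IsLocalRing A] [Algebra 𝒪 A], GaloisRepAdic A → Prop}
    (h : IsDeformationCondition 𝒪 𝒟) (h' : IsDeformationCondition 𝒪 𝒟') :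
    IsDeformationCondition 𝒪 (fun _A _ _ _ ρ => 𝒟 ρ ∧ 𝒟' ρ) where
  of_isEquiv _ _ _ _ hA _ _ e H := ⟨h.of_isEquiv hA e H.1, h'.of_isEquiv hA e H.2⟩
  baseChangeAlong _ _ _ _ _ _ _ _ hA hB φ hφ _ H :=
    ⟨h.baseChangeAlong hA hB φ hφ H.1, h'.baseChangeAlong hA hB φ hφ H.2⟩
  of_baseChangeAlong_injective _ _ _ _ _ _ _ _ hA hB φ hφ hinj _ H :=
    ⟨h.of_baseChangeAlong_injective hA hB φ hφ hinj H.1,
      h'.of_baseChangeAlong_injective hA hB φ hφ hinj H.2⟩
  of_fibreProduct _ _ _ _ _ _ _ _ _ _ _ _ _ _ _ _ hA hB hC hP f g pA pB hpA hpB e1 e2 e3 _ H H' :=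
    ⟨h.of_fibreProduct hA hB hC hP f g pA pB hpA hpB e1 e2 e3 H.1 H'.1,
      h'.of_fibreProduct hA hB hC hP f g pA pB hpA hpB e1 e2 e3 H.2 H'.2⟩
  iff_forall_surjective A _ _ _ _ _ hl hres ρ := by
    rw [h.iff_forall_surjective hl hres ρ, h'.iff_forall_surjective hl hres ρ]
    exact ⟨fun H B _ _ _ hB q hq hs => ⟨H.1 hB q hq hs, H.2 hB q hq hs⟩,
      fun H => ⟨fun B _ _ _ hB q hq hs => (H hB q hq hs).1,
        fun B _ _ _ hB q hq hs => (H hB q hq hs).2⟩⟩

omit [IsLocalRing 𝒪] in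
/-- Families of deformation conditions. -/
theorem isDeformationCondition_forall {ι : Sort*}
    {𝒟 : ι → ∀ ⦃A : Type⦄ [CommRing A] [IsLocalRing A] [Algebra 𝒪 A], GaloisRepAdic A → Prop}
    (h : ∀ i, IsDeformationCondition 𝒪 (𝒟 i)) :
    IsDeformationCondition 𝒪 (fun _A _ _ _ ρ => ∀ i, 𝒟 i ρ) where
  of_isEquiv _ _ _ _ hA _ _ e H i := (h i).of_isEquiv hA e (H i)
  baseChangeAlong _ _ _ _ _ _ _ _ hA hB φ hφ _ H i := (h i).baseChangeAlong hA hB φ hφ (H i)
  of_baseChangeAlong_injective _ _ _ _ _ _ _ _ hA hB φ hφ hinj _ H i :=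
    (h i).of_baseChangeAlong_injective hA hB φ hφ hinj (H i)
  of_fibreProduct _ _ _ _ _ _ _ _ _ _ _ _ _ _ _ _ hA hB hC hP f g pA pB hpA hpB e1 e2 e3 _ H H' i :=
    (h i).of_fibreProduct hA hB hC hP f g pA pB hpA hpB e1 e2 e3 (H i) (H' i)
  iff_forall_surjective _ _ _ _ _ _ hl hres ρ :=
    ⟨fun H _ _ _ _ hB q hq hs i => ((h i).iff_forall_surjective hl hres ρ).mp (H i) hB q hq hs,
      fun H i => ((h i).iff_forall_surjective hl hres ρ).mpr fun _ _ _ _ hB q hq hs => H hB q hq hs i⟩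

end Fermat.Agent.DefCond
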