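import Fermat.Agent.DefCond.Simple
import Fermat.Agent.FlatModels.FlatAt
import Fermat.Agent.TWAssembly.BaseChange

/-!
# The finite flat condition

Over a finite ring, flatness at `p` is the existence of a finite flat model of the whole module.
Hence it is invariant under isomorphism, stable under base change, detected by jointly injective
pairs of maps and closed for the adic topology, so it is a deformation condition.
-/

set_option autoImplicit false

namespace Fermat.Agent.DefCond

open IsLocalRing GaloisRep Module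
open Fermat.Agent.Deformation (GQ)
open Fermat.Agent.FlatModels (HasFlatModel isFlatAt_of_hasFlatModel hasFlatModel_level_of_isFlatAt)
open scoped TensorProduct

variable {A B : Type} [CommRing A] [IsLocalRing A] [CommRing B] [IsLocalRing B] {p : ℕ}

omit [IsLocalRing B] in
/-- `I • V` dies in a base change along a map which kills `I`. -/
theorem smul_top_mem_baseChange (ρ : GaloisRepAdic A) (f : A →+* B) {I : Ideal A}
    (hI : ∀ a ∈ I, f a = 0) :
    letI : Algebra A B := f.toAlgebra
    ∀ v ∈ I • (⊤ : Submodule A ρ.V), (1 : B) ⊗ₜ[A] v = 0 := by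
  let _ : Algebra A B := f.toAlgebra
  intro v hv
  induction hv using Submodule.smul_induction_on' with
  | smul r hr x _ =>
    rw [TensorProduct.tmul_smul, TensorProduct.smul_tmul', Algebra.smul_def,
      RingHom.algebraMap_toAlgebra, hI r hr, zero_mul, TensorProduct.zero_tmul]
  | add x _ y _ hx hy => rw [TensorProduct.tmul_add, hx, hy, add_zero]

/-- For a finite ring the whole module has a flat model. -/
theorem hasFlatModel_of_isFlatAt [Finite A] {ρ : GaloisRepAdic A} (h : ρ.IsFlatAt p) :
    HasFlatModel p (fun σ (v : ρ.V) => ρ.ρ σ v) := by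
  have hI : Finite (A ⧸ (⊥ : Ideal A)) := Finite.of_surjective _ Ideal.Quotient.mk_surjective
  refine (hasFlatModel_level_of_isFlatAt h ⊥ hI).of_addEquiv
    (Submodule.quotEquivOfEqBot _ (Submodule.bot_smul _)).toAddEquiv.symm fun σ x => ?_
  rfl

/-- A flat model of the module gives flatness over a finite ring. -/
theorem isFlatAt_of_model [Finite A] {ρ : GaloisRepAdic A}
    (h : HasFlatModel p (fun σ (v : ρ.V) => ρ.ρ σ v)) : ρ.IsFlatAt p := by
  refine isFlatAt_of_hasFlatModel (Finite.of_surjective _ residue_surjective) fun I _ => ?_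
  exact h.of_surjective (I • (⊤ : Submodule A ρ.V)).mkQ.toAddMonoidHom
    (Submodule.mkQ_surjective _) fun σ x => rfl

/-- Flatness at `p` is invariant under isomorphism. -/
theorem flat_iso [Finite A] {ρ ρ' : GaloisRepAdic A} (e : ρ.IsEquiv ρ') (h : ρ.IsFlatAt p) :
    ρ'.IsFlatAt p := by
  obtain ⟨e⟩ := e
  refine isFlatAt_of_model ((hasFlatModel_of_isFlatAt h).of_addEquiv
    e.toLinearEquiv.symm.toAddEquiv fun σ x => ?_)
  exact e.symm.map_apply σ x

/-- Flatness at `p` is stable under base change: `B ⊗ V` is a quotient of a power of `V`. -/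
theorem flat_map [Finite A] [Finite B] (f : A →+* B) (hf : IsLocalHom f) {ρ : GaloisRepAdic A}
    (h : ρ.IsFlatAt p) : (ρ.baseChangeAlong f hf).IsFlatAt p := by
  let _ : Algebra A B := f.toAlgebra
  have hpi := HasFlatModel.pi (ι := B) (N := fun _ => ρ.V) (fun _ => hasFlatModel_of_isFlatAt h)
  cases nonempty_fintype B
  let Ψ : (B → ρ.V) →+ B ⊗[A] ρ.V :=
    { toFun := fun v => ∑ c, c ⊗ₜ[A] v c
      map_zero' := by simp
      map_add' := fun v w => by simp [TensorProduct.tmul_add, Finset.sum_add_distrib] }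
  have hΨ : Function.Surjective Ψ := fun x => by
    induction x using TensorProduct.induction_on with
    | zero => exact ⟨0, map_zero _⟩
    | tmul c w =>
      classical
      refine ⟨Pi.single c w, ?_⟩
      show ∑ d, d ⊗ₜ[A] (Pi.single c w : B → ρ.V) d = c ⊗ₜ[A] w
      rw [Finset.sum_eq_single c (fun d _ hd => by rw [Pi.single_eq_of_ne hd, TensorProduct.tmul_zero])
        (fun hc => absurd (Finset.mem_univ c) hc), Pi.single_eq_same]
    | add x y hx hy =>
      obtain ⟨u, rfl⟩ := hx
      obtain ⟨w, rfl⟩ := hy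
      exact ⟨u + w, map_add _ u w⟩
  refine isFlatAt_of_model (hpi.of_surjective (M'' := (ρ.baseChangeAlong f hf).V) Ψ hΨ fun σ v => ?_)
  show ∑ c, c ⊗ₜ[A] ρ.ρ σ (v c) = (ρ.ρ σ).baseChange B (∑ c, c ⊗ₜ[A] v c)
  rw [map_sum]
  exact Finset.sum_congr rfl fun c _ => by rw [LinearMap.baseChange_tmul]

omit [IsLocalRing B] in
/-- A vector that dies in the base change has coordinates in the kernel. -/
theorem map_repr_eq_zero_of_tmul (ρ : GaloisRepAdic A) (b : Basis (Fin 2) A ρ.V) (f : A →+* B)
    (v : ρ.V) (hv : letI : Algebra A B := f.toAlgebra; (1 : B) ⊗ₜ[A] v = 0) (i : Fin 2) :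
    f (b.repr v i) = 0 := by
  let _ : Algebra A B := f.toAlgebra
  have h := Algebra.TensorProduct.basis_repr_tmul b (1 : B) v
  rw [hv, map_zero] at h
  have h' := DFunLike.congr_fun h i
  simpa [RingHom.algebraMap_toAlgebra] using h'.symm

/-- Flatness at `p` is detected by a jointly injective pair, `V` being a submodule of the product
of the two base changes. -/
theorem flat_refl {R : Type} [CommRing R] [IsLocalRing R] [Finite R] [Finite A] [Finite B]
    {τ : GaloisRepAdic R} (f : R →+* A) (hf : IsLocalHom f) (g : R →+* B) (hg : IsLocalHom g)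
    (h : JointlyInjective f g) (hA : (τ.baseChangeAlong f hf).IsFlatAt p)
    (hB : (τ.baseChangeAlong g hg).IsFlatAt p) : τ.IsFlatAt p := by
  obtain ⟨b⟩ := exists_basis τ
  let i₁ : τ.V →+ (τ.baseChangeAlong f hf).V :=
    letI : Algebra R A := f.toAlgebra
    (TensorProduct.mk R A τ.V 1).toAddMonoidHom
  let i₂ : τ.V →+ (τ.baseChangeAlong g hg).V :=
    letI : Algebra R B := g.toAlgebra
    (TensorProduct.mk R B τ.V 1).toAddMonoidHom
  refine isFlatAt_of_model (((hasFlatModel_of_isFlatAt hA).prod
    (hasFlatModel_of_isFlatAt hB)).of_injective (i₁.prod i₂) ?_ fun σ v => ?_)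
  · refine (injective_iff_map_eq_zero _).mpr fun v hv => ?_
    refine b.ext_elem fun i => ?_
    rw [map_zero, Finsupp.zero_apply]
    exact h _ (map_repr_eq_zero_of_tmul τ b f v (congrArg Prod.fst hv) i)
      (map_repr_eq_zero_of_tmul τ b g v (congrArg Prod.snd hv) i)
  · rfl

/-- Flatness at `p` is closed: it can be tested on the finite quotients of the ring. -/
theorem flat_closed (hfin : Finite (ResidueField A)) {ρ : GaloisRepAdic A}
    (h : ∀ (I : Ideal A), Finite (A ⧸ I) → ∀ (_ : IsLocalRing (A ⧸ I))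
      (hq : IsLocalHom (Ideal.Quotient.mk I)),
      (ρ.baseChangeAlong (Ideal.Quotient.mk I) hq).IsFlatAt p) :
    ρ.IsFlatAt p := by
  refine isFlatAt_of_hasFlatModel hfin fun I hI => ?_
  by_cases htop : I = ⊤
  · have : Subsingleton (ρ.V ⧸ (I • (⊤ : Submodule A ρ.V))) :=
      Submodule.Quotient.subsingleton_iff.mpr (by rw [htop, Submodule.top_smul])
    exact FlatModels.hasFlatModel_of_subsingleton _
  have : Nontrivial (A ⧸ I) := Ideal.Quotient.nontrivial_iff.mpr htop
  have hl : IsLocalRing (A ⧸ I) :=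
    .of_surjective' (Ideal.Quotient.mk I) Ideal.Quotient.mk_surjective
  have hq : IsLocalHom (Ideal.Quotient.mk I) := .of_surjective _ Ideal.Quotient.mk_surjective
  have hmodel := hasFlatModel_of_isFlatAt (h I hI hl hq)
  obtain ⟨b⟩ := exists_basis ρ
  let _ : Algebra A (A ⧸ I) := (Ideal.Quotient.mk I).toAlgebra
  let i : (ρ.V ⧸ (I • (⊤ : Submodule A ρ.V))) →+ ((A ⧸ I) ⊗[A] ρ.V) :=
    QuotientAddGroup.lift _ (TensorProduct.mk A (A ⧸ I) ρ.V 1).toAddMonoidHom fun v hv =>
      smul_top_mem_baseChange ρ (Ideal.Quotient.mk I)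
        (fun a ha => Ideal.Quotient.eq_zero_iff_mem.mpr ha) v hv
  refine hmodel.of_injective i ?_ fun σ x => ?_
  · refine (injective_iff_map_eq_zero _).mpr fun x hx => ?_
    obtain ⟨v, rfl⟩ := Submodule.Quotient.mk_surjective _ x
    refine (Submodule.Quotient.mk_eq_zero _).mpr ((TWAssembly.mem_smul_top_iff_repr b I v).mpr
      fun j => Ideal.Quotient.eq_zero_iff_mem.mp ?_)
    exact map_repr_eq_zero_of_tmul ρ b (Ideal.Quotient.mk I) v hx j
  · obtain ⟨v, rfl⟩ := Submodule.Quotient.mk_surjective _ x
    rfl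

variable {𝒪 : Type} [CommRing 𝒪] [IsLocalRing 𝒪] [Finite (ResidueField 𝒪)]

/-- Flatness at `p` is a deformation condition. -/
theorem isDeformationCondition_flat (p : ℕ) :
    IsDeformationCondition 𝒪 (fun _A _ _ _ ρ => ρ.IsFlatAt p) :=
  isDeformationCondition_of (C := fun _A _ _ ρ => ρ.IsFlatAt p) (fun e h => flat_iso e h)
    (by intros; apply flat_map; assumption)
    (fun f hf g hg h => flat_refl f hf g hg h)
    (by intros; apply TWAssembly.isFlatAt_baseChange <;> assumption)
    (fun hfin _ => flat_closed hfin)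

end Fermat.Agent.DefCond
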