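import Fermat.Agent.DefCond.Basic

/-!
# Unramified, unipotent and cyclotomic-determinant conditions

Being unramified at `q`, having unipotent inertia at `q` and having cyclotomic determinant are
equations on the matrix entries in any basis. We show that each is a deformation condition, as is
each of the first two imposed at a set of primes.
-/

set_option autoImplicit false

namespace Fermat.Agent.DefCond

open IsLocalRing GaloisRep Module Polynomial
open Fermat.Agent.Deformation (GQ)

variable {A B : Type} [CommRing A] [IsLocalRing A] [CommRing B] [IsLocalRing B]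
  {ρ : GaloisRepAdic A}

/-- Unramifiedness in terms of matrices: inertia goes to the identity. -/
theorem isUnramifiedAt_iff (b : Basis (Fin 2) A ρ.V) (q : ℕ) :
    ρ.IsUnramifiedAt q ↔ ∀ P : ValuationSubring (AlgebraicClosure ℚ), P.LiesOverPrime q →
      ∀ σ ∈ P.inertiaSubgroupIn ℚ, repMat ρ b σ = 1 := by
  refine forall_congr' fun P => imp_congr_right fun _ => forall₂_congr fun σ _ => ?_
  rw [repMat_apply]
  exact ⟨fun h => by rw [h, LinearMap.toMatrix_one],
    fun h => (LinearMap.toMatrix b b).injective (h.trans (LinearMap.toMatrix_one b).symm)⟩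

/-- Unipotence in terms of matrices: inertia has characteristic polynomial `(X - 1) ^ 2`. -/
theorem isUnipotentOnInertiaAt_iff (b : Basis (Fin 2) A ρ.V) (q : ℕ) :
    ρ.IsUnipotentOnInertiaAt q ↔ ∀ P : ValuationSubring (AlgebraicClosure ℚ), P.LiesOverPrime q →
      ∀ σ ∈ P.inertiaSubgroupIn ℚ, (repMat ρ b σ).charpoly = (X - 1) ^ 2 := by
  refine forall_congr' fun P => imp_congr_right fun _ => forall₂_congr fun σ _ => ?_
  rw [repMat_apply, LinearMap.charpoly_toMatrix]

/-- The determinant condition in terms of matrices. -/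
theorem detIsCyclotomic_iff (b : Basis (Fin 2) A ρ.V) (p : ℕ) :
    ρ.DetIsCyclotomic p ↔ (p : A) ∈ maximalIdeal A ∧ ∀ (n : ℕ) (σ : GQ) (a : ℕ),
      (∀ μ : AlgebraicClosure ℚ, μ ^ p ^ n = 1 → σ μ = μ ^ a) →
        (repMat ρ b σ).det - (a : A) ∈ Ideal.span {((p ^ n : ℕ) : A)} := by
  simp only [GaloisRepAdic.DetIsCyclotomic, repMat_apply, LinearMap.det_toMatrix]

theorem repMat_bc_det (b : Basis (Fin 2) A ρ.V) (f : A →+* B) (hf : IsLocalHom f) (σ : GQ) :
    (repMat (ρ.baseChangeAlong f hf) (bcBasis ρ b f hf) σ).det = f (repMat ρ b σ).det := by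
  rw [repMat_bcBasis, RingHom.map_det, RingHom.mapMatrix_apply]

section Unramified

/-- Unramifiedness is invariant under isomorphism. -/
theorem unramified_iso {ρ' : GaloisRepAdic A} (h : ρ.IsEquiv ρ') {q : ℕ}
    (hC : ρ.IsUnramifiedAt q) : ρ'.IsUnramifiedAt q := by
  obtain ⟨e⟩ := h
  obtain ⟨b⟩ := exists_basis ρ
  rw [isUnramifiedAt_iff (b.map e.toLinearEquiv)]
  rw [isUnramifiedAt_iff b] at hC
  exact fun P hP σ hσ => (repMat_equiv e b σ).trans (hC P hP σ hσ)

theorem unramified_map (f : A →+* B) (hf : IsLocalHom f) {q : ℕ} (hC : ρ.IsUnramifiedAt q) :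
    (ρ.baseChangeAlong f hf).IsUnramifiedAt q := by
  obtain ⟨b⟩ := exists_basis ρ
  rw [isUnramifiedAt_iff (bcBasis ρ b f hf)]
  rw [isUnramifiedAt_iff b] at hC
  intro P hP σ hσ
  rw [repMat_bcBasis, hC P hP σ hσ, Matrix.map_one _ (map_zero f) (map_one f)]

variable {P : Type} [CommRing P] [IsLocalRing P] {τ : GaloisRepAdic P}

theorem unramified_refl (f : P →+* A) (hf : IsLocalHom f) (g : P →+* B) (hg : IsLocalHom g)
    (h : JointlyInjective f g) {q : ℕ} (hA : (τ.baseChangeAlong f hf).IsUnramifiedAt q)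
    (hB : (τ.baseChangeAlong g hg).IsUnramifiedAt q) : τ.IsUnramifiedAt q := by
  obtain ⟨b⟩ := exists_basis τ
  rw [isUnramifiedAt_iff (bcBasis τ b f hf)] at hA
  rw [isUnramifiedAt_iff (bcBasis τ b g hg)] at hB
  rw [isUnramifiedAt_iff b]
  intro Q hQ σ hσ
  refine h.matrix_eq ?_ ?_
  · rw [← repMat_bcBasis τ b f hf, hA Q hQ σ hσ, Matrix.map_one _ (map_zero f) (map_one f)]
  · rw [← repMat_bcBasis τ b g hg, hB Q hQ σ hσ, Matrix.map_one _ (map_zero g) (map_one g)]

/-- What holds on all quotients by powers of the maximal ideal. -/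
theorem forall_quotient_pow {C : ∀ ⦃A : Type⦄ [CommRing A] [IsLocalRing A], GaloisRepAdic A → Prop}
    [IsNoetherianRing A] (hfin : Finite (ResidueField A))
    (h : ∀ (I : Ideal A), Finite (A ⧸ I) → ∀ (_ : IsLocalRing (A ⧸ I))
      (hq : IsLocalHom (Ideal.Quotient.mk I)), C (ρ.baseChangeAlong (Ideal.Quotient.mk I) hq))
    (k : ℕ) : ∃ (_ : IsLocalRing (A ⧸ maximalIdeal A ^ (k + 1)))
      (hq : IsLocalHom (Ideal.Quotient.mk (maximalIdeal A ^ (k + 1)))),
      C (ρ.baseChangeAlong (Ideal.Quotient.mk (maximalIdeal A ^ (k + 1))) hq) := by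
  have : Nontrivial (A ⧸ maximalIdeal A ^ (k + 1)) := Ideal.Quotient.nontrivial_iff.mpr
    (ne_top_of_le_ne_top (Ideal.IsMaximal.ne_top inferInstance) (Ideal.pow_le_self k.succ_ne_zero))
  have hl : IsLocalRing (A ⧸ maximalIdeal A ^ (k + 1)) :=
    .of_surjective' (Ideal.Quotient.mk _) Ideal.Quotient.mk_surjective
  have : Finite (A ⧸ maximalIdeal A) := hfin
  exact ⟨hl, .of_surjective _ Ideal.Quotient.mk_surjective,
    h _ (Ideal.finite_quotient_pow (IsNoetherian.noetherian _) _) hl _⟩

variable [IsNoetherianRing A] (hfin : Finite (ResidueField A))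

include hfin in
theorem unramified_closed {q : ℕ}
    (h : ∀ (I : Ideal A), Finite (A ⧸ I) → ∀ (_ : IsLocalRing (A ⧸ I))
      (hq : IsLocalHom (Ideal.Quotient.mk I)),
      (ρ.baseChangeAlong (Ideal.Quotient.mk I) hq).IsUnramifiedAt q) :
    ρ.IsUnramifiedAt q := by
  obtain ⟨b⟩ := exists_basis ρ
  rw [isUnramifiedAt_iff b]
  intro Q hQ σ hσ
  refine Matrix.ext fun i j => sub_eq_zero.mp (eq_zero_of_forall_mem_pow fun k => ?_)
  obtain ⟨_, hq, hk⟩ := forall_quotient_pow (C := fun _ _ _ ρ => ρ.IsUnramifiedAt q) hfin h k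
  rw [isUnramifiedAt_iff (bcBasis ρ b _ hq)] at hk
  rw [← Ideal.Quotient.eq_zero_iff_mem, map_sub, sub_eq_zero]
  have h1 := congrFun (congrFun (hk Q hQ σ hσ) i) j
  rw [repMat_bcBasis, Matrix.map_apply] at h1
  rw [h1, Matrix.one_apply, Matrix.one_apply]
  split_ifs <;> simp

end Unramified

section Unipotent

theorem unipotent_iso {ρ' : GaloisRepAdic A} (h : ρ.IsEquiv ρ') {q : ℕ}
    (hC : ρ.IsUnipotentOnInertiaAt q) : ρ'.IsUnipotentOnInertiaAt q := by
  obtain ⟨e⟩ := h
  obtain ⟨b⟩ := exists_basis ρ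
  rw [isUnipotentOnInertiaAt_iff (b.map e.toLinearEquiv)]
  rw [isUnipotentOnInertiaAt_iff b] at hC
  exact fun P hP σ hσ => by rw [repMat_equiv e b σ, hC P hP σ hσ]

theorem unipotent_map (f : A →+* B) (hf : IsLocalHom f) {q : ℕ}
    (hC : ρ.IsUnipotentOnInertiaAt q) : (ρ.baseChangeAlong f hf).IsUnipotentOnInertiaAt q := by
  obtain ⟨b⟩ := exists_basis ρ
  rw [isUnipotentOnInertiaAt_iff (bcBasis ρ b f hf)]
  rw [isUnipotentOnInertiaAt_iff b] at hC
  intro P hP σ hσ
  rw [repMat_bcBasis, Matrix.charpoly_map, hC P hP σ hσ]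
  simp

variable {P : Type} [CommRing P] [IsLocalRing P] {τ : GaloisRepAdic P}

theorem unipotent_refl (f : P →+* A) (hf : IsLocalHom f) (g : P →+* B) (hg : IsLocalHom g)
    (h : JointlyInjective f g) {q : ℕ} (hA : (τ.baseChangeAlong f hf).IsUnipotentOnInertiaAt q)
    (hB : (τ.baseChangeAlong g hg).IsUnipotentOnInertiaAt q) : τ.IsUnipotentOnInertiaAt q := by
  obtain ⟨b⟩ := exists_basis τ
  rw [isUnipotentOnInertiaAt_iff (bcBasis τ b f hf)] at hA
  rw [isUnipotentOnInertiaAt_iff (bcBasis τ b g hg)] at hB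
  rw [isUnipotentOnInertiaAt_iff b]
  intro Q hQ σ hσ
  have hA' := hA Q hQ σ hσ
  have hB' := hB Q hQ σ hσ
  rw [repMat_bcBasis, Matrix.charpoly_map] at hA' hB'
  refine Polynomial.ext fun k => h.eq ?_ ?_
  · rw [← coeff_map, hA', ← coeff_map]
    simp
  · rw [← coeff_map, hB', ← coeff_map]
    simp

variable [IsNoetherianRing A] (hfin : Finite (ResidueField A))

include hfin in
theorem unipotent_closed {q : ℕ}
    (h : ∀ (I : Ideal A), Finite (A ⧸ I) → ∀ (_ : IsLocalRing (A ⧸ I))
      (hq : IsLocalHom (Ideal.Quotient.mk I)),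
      (ρ.baseChangeAlong (Ideal.Quotient.mk I) hq).IsUnipotentOnInertiaAt q) :
    ρ.IsUnipotentOnInertiaAt q := by
  obtain ⟨b⟩ := exists_basis ρ
  rw [isUnipotentOnInertiaAt_iff b]
  intro Q hQ σ hσ
  refine Polynomial.ext fun j => sub_eq_zero.mp (eq_zero_of_forall_mem_pow fun k => ?_)
  obtain ⟨_, hq, hk⟩ :=
    forall_quotient_pow (C := fun _ _ _ ρ => ρ.IsUnipotentOnInertiaAt q) hfin h k
  rw [isUnipotentOnInertiaAt_iff (bcBasis ρ b _ hq)] at hk
  have hk' := hk Q hQ σ hσ
  rw [repMat_bcBasis, Matrix.charpoly_map] at hk'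
  rw [← Ideal.Quotient.eq_zero_iff_mem, map_sub, sub_eq_zero, ← coeff_map, hk', ← coeff_map]
  simp

end Unipotent

section Det

/-- Cyclotomic determinant is invariant under isomorphism. -/
theorem det_iso {ρ' : GaloisRepAdic A} (h : ρ.IsEquiv ρ') {p : ℕ}
    (hC : ρ.DetIsCyclotomic p) : ρ'.DetIsCyclotomic p := by
  obtain ⟨e⟩ := h
  obtain ⟨b⟩ := exists_basis ρ
  rw [detIsCyclotomic_iff (b.map e.toLinearEquiv)]
  rw [detIsCyclotomic_iff b] at hC
  exact ⟨hC.1, fun n σ a ha => by rw [repMat_equiv e b σ]; exact hC.2 n σ a ha⟩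

omit [IsLocalRing A] [IsLocalRing B] in
theorem map_mem_span_natCast (f : A →+* B) {x : A} {m : ℕ} (h : x ∈ Ideal.span {(m : A)}) :
    f x ∈ Ideal.span {(m : B)} := by
  obtain ⟨t, rfl⟩ := Ideal.mem_span_singleton'.1 h
  exact Ideal.mem_span_singleton'.2 ⟨f t, by rw [map_mul, map_natCast]⟩

/-- Cyclotomic determinant is stable under base change. -/
theorem det_map (f : A →+* B) (hf : IsLocalHom f) {p : ℕ}
    (hC : ρ.DetIsCyclotomic p) : (ρ.baseChangeAlong f hf).DetIsCyclotomic p := by
  obtain ⟨b⟩ := exists_basis ρ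
  rw [detIsCyclotomic_iff (bcBasis ρ b f hf)]
  rw [detIsCyclotomic_iff b] at hC
  refine ⟨?_, fun n σ a ha => ?_⟩
  · rw [← map_natCast f]
    exact map_nonunit f _ hC.1
  · rw [repMat_bc_det, ← map_natCast f a, ← map_sub]
    exact map_mem_span_natCast f (hC.2 n σ a ha)

variable {P : Type} [CommRing P] [IsLocalRing P] [IsArtinianRing P] {τ : GaloisRepAdic P}

/-- Cyclotomic determinant is detected by a jointly injective pair. -/
theorem det_refl (f : P →+* A) (hf : IsLocalHom f) (g : P →+* B) (hg : IsLocalHom g)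
    (h : JointlyInjective f g) {p : ℕ} [Fact p.Prime]
    (hA : (τ.baseChangeAlong f hf).DetIsCyclotomic p)
    (hB : (τ.baseChangeAlong g hg).DetIsCyclotomic p) : τ.DetIsCyclotomic p := by
  obtain ⟨b⟩ := exists_basis τ
  rw [detIsCyclotomic_iff (bcBasis τ b f hf)] at hA
  rw [detIsCyclotomic_iff (bcBasis τ b g hg)] at hB
  rw [detIsCyclotomic_iff b]
  have hp : (p : P) ∈ maximalIdeal P := fun hu => hA.1 (by simpa using hu.map f)
  refine ⟨hp, fun n σ a ha => ?_⟩
  have := cyclo_mem_span_of_jointlyInjective p hp h σ (repMat τ b σ).det 1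
    (fun n a ha => by simpa [repMat_bc_det] using hA.2 n σ a ha)
    (fun n a ha => by simpa [repMat_bc_det] using hB.2 n σ a ha) n a ha
  simpa using this

variable [IsNoetherianRing A] (hfin : Finite (ResidueField A))

include hfin in
/-- Cyclotomic determinant can be tested on the finite quotients. -/
theorem det_closed {p : ℕ}
    (h : ∀ (I : Ideal A), Finite (A ⧸ I) → ∀ (_ : IsLocalRing (A ⧸ I))
      (hq : IsLocalHom (Ideal.Quotient.mk I)),
      (ρ.baseChangeAlong (Ideal.Quotient.mk I) hq).DetIsCyclotomic p) :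
    ρ.DetIsCyclotomic p := by
  obtain ⟨b⟩ := exists_basis ρ
  rw [detIsCyclotomic_iff b]
  refine ⟨?_, fun n σ a ha => mem_span_of_forall fun k => ?_⟩
  · obtain ⟨_, hq, hk⟩ := forall_quotient_pow (C := fun _ _ _ ρ => ρ.DetIsCyclotomic p) hfin h 0
    have h1 := hk.1
    rw [mem_maximalIdeal, mem_nonunits_iff, ← map_natCast (Ideal.Quotient.mk _) p] at h1
    rw [mem_maximalIdeal, mem_nonunits_iff]
    exact fun hu => h1 (hu.map _)
  · obtain ⟨_, hq, hk⟩ := forall_quotient_pow (C := fun _ _ _ ρ => ρ.DetIsCyclotomic p) hfin h k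
    rw [detIsCyclotomic_iff (bcBasis ρ b _ hq)] at hk
    have h1 := hk.2 n σ a ha
    rw [repMat_bc_det, ← map_natCast (Ideal.Quotient.mk (maximalIdeal A ^ (k + 1))) a, ← map_sub,
      ← map_natCast (Ideal.Quotient.mk (maximalIdeal A ^ (k + 1))) (p ^ n), ← Set.image_singleton,
      ← Ideal.map_span, ← Ideal.mem_comap,
      Ideal.comap_map_of_surjective _ Ideal.Quotient.mk_surjective, ← RingHom.ker_eq_comap_bot,
      Ideal.mk_ker] at h1
    exact h1

end Det

variable {𝒪 : Type} [CommRing 𝒪] [IsLocalRing 𝒪] [Finite (ResidueField 𝒪)]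

/-- Being unramified at `q` is a deformation condition. -/
theorem isDeformationCondition_unramified (q : ℕ) :
    IsDeformationCondition 𝒪 (fun _A _ _ _ ρ => ρ.IsUnramifiedAt q) :=
  isDeformationCondition_of (C := fun _A _ _ ρ => ρ.IsUnramifiedAt q)
    (fun e h => unramified_iso e h)
    (by intros; apply unramified_map; assumption)
    (fun f hf g hg h => unramified_refl f hf g hg h)
    (by intros; apply unramified_map; assumption) (fun hfin _ => unramified_closed hfin)

/-- Unipotent inertia at `q` is a deformation condition. -/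
theorem isDeformationCondition_unipotent (q : ℕ) :
    IsDeformationCondition 𝒪 (fun _A _ _ _ ρ => ρ.IsUnipotentOnInertiaAt q) :=
  isDeformationCondition_of (C := fun _A _ _ ρ => ρ.IsUnipotentOnInertiaAt q)
    (fun e h => unipotent_iso e h)
    (by intros; apply unipotent_map; assumption) (fun f hf g hg h => unipotent_refl f hf g hg h)
    (by intros; apply unipotent_map; assumption) (fun hfin _ => unipotent_closed hfin)

/-- Cyclotomic determinant is a deformation condition. -/
theorem isDeformationCondition_det (p : ℕ) [Fact p.Prime] :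
    IsDeformationCondition 𝒪 (fun _A _ _ _ ρ => ρ.DetIsCyclotomic p) :=
  isDeformationCondition_of (C := fun _A _ _ ρ => ρ.DetIsCyclotomic p)
    (fun e h => det_iso e h)
    (by intros; apply det_map; assumption)
    (fun f hf g hg h => det_refl f hf g hg h)
    (by intros; apply det_map; assumption) (fun hfin _ => det_closed hfin)

/-- Being unramified outside `S` is a deformation condition. -/
theorem isDeformationCondition_unramifiedOutside (S : Finset ℕ) :
    IsDeformationCondition 𝒪 (fun _A _ _ _ ρ => ∀ q : ℕ, q.Prime → q ∉ S → ρ.IsUnramifiedAt q) :=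
  isDeformationCondition_forall fun q => isDeformationCondition_forall fun _ =>
    isDeformationCondition_forall fun _ => isDeformationCondition_unramified q

/-- Unipotent inertia at a set of primes is a deformation condition. -/
theorem isDeformationCondition_unipotentOn (p : ℕ) (S : Finset ℕ) :
    IsDeformationCondition 𝒪
      (fun _A _ _ _ ρ => ∀ q ∈ S, q.Prime → q ≠ p → ρ.IsUnipotentOnInertiaAt q) :=
  isDeformationCondition_forall fun q => isDeformationCondition_forall fun _ =>
    isDeformationCondition_forall fun _ => isDeformationCondition_forall fun _ =>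
      isDeformationCondition_unipotent q

end Fermat.Agent.DefCond
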