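import Fermat.Prelude.Def_GaloisRep_StrictOrdinary
import Fermat.Agent.DefCond.Simple
import Fermat.Agent.LocalInertia.Cyclotomic

/-!
# The ordinary and strict ordinary conditions

With cyclotomic determinant and `p` odd, the stable line at a place `P` over `p` is the image of
`ρ σ₀ - 1` for one element `σ₀` of inertia acting on `μ_p` by squaring, so that ordinarity becomes a
system of equations on matrix entries.
-/

set_option autoImplicit false

namespace Fermat.Agent.DefCond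

open IsLocalRing GaloisRep Module
open Fermat.Agent.Deformation (GQ)

variable {A B : Type} [CommRing A] [CommRing B]

/-- The equations of ordinarity at `P`, in terms of the element `σ₀`. -/
structure OrdEq (M : GQ → Matrix (Fin 2) (Fin 2) A) (P : ValuationSubring (AlgebraicClosure ℚ))
    (σ₀ : GQ) : Prop where
  det_eq : (M σ₀ - 1).det = 0
  stable : ∀ σ ∈ P.decompositionSubgroup ℚ,
    (M σ₀ - 1) * M σ * (M σ₀ - 1) = (M σ₀ - 1).trace • (M σ * (M σ₀ - 1))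
  inertia : ∀ σ ∈ P.inertiaSubgroupIn ℚ,
    (M σ₀ - 1) * (M σ - 1) = (M σ₀ - 1).trace • (M σ - 1)

/-- The additional congruences of strict ordinarity. -/
def StrictEq (p : ℕ) (M : GQ → Matrix (Fin 2) (Fin 2) A)
    (P : ValuationSubring (AlgebraicClosure ℚ)) (σ₀ : GQ) : Prop :=
  ∀ σ ∈ P.decompositionSubgroup ℚ, ∀ n a : ℕ,
    (∀ μ : AlgebraicClosure ℚ, μ ^ p ^ n = 1 → σ μ = μ ^ a) →
      ((M σ₀ - 1) * M σ).trace -
          (a : A) * ((M σ₀ - 1).trace * (M σ).trace - ((M σ₀ - 1) * M σ).trace) ∈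
        Ideal.span {((p ^ n : ℕ) : A)}

variable {M N : GQ → Matrix (Fin 2) (Fin 2) A} {P : ValuationSubring (AlgebraicClosure ℚ)}
  {σ₀ : GQ} {p : ℕ}

/-- The equations of ordinarity are invariant under conjugation. -/
theorem OrdEq.conj (h : OrdEq M P σ₀) (g : (Matrix (Fin 2) (Fin 2) A)ˣ)
    (hN : ∀ σ, N σ = g * M σ * (↑g⁻¹ : Matrix (Fin 2) (Fin 2) A)) : OrdEq N P σ₀ := by
  have e : ∀ σ, N σ - 1 = g * (M σ - 1) * (↑g⁻¹ : Matrix (Fin 2) (Fin 2) A) := fun σ => by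
    rw [hN, mul_sub, sub_mul, mul_one, Units.mul_inv]
  have m : ∀ X Y : Matrix (Fin 2) (Fin 2) A,
      (g : Matrix (Fin 2) (Fin 2) A) * X * (↑g⁻¹ : Matrix (Fin 2) (Fin 2) A) *
        ((g : Matrix (Fin 2) (Fin 2) A) * Y * (↑g⁻¹ : Matrix (Fin 2) (Fin 2) A)) =
      g * (X * Y) * (↑g⁻¹ : Matrix (Fin 2) (Fin 2) A) := fun X Y => by
    simp only [mul_assoc, Units.inv_mul_cancel_left]
  refine ⟨?_, fun σ hσ => ?_, fun σ hσ => ?_⟩
  · rw [e, Matrix.det_units_conj, h.det_eq]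
  · rw [e, hN σ, m, m, h.stable σ hσ, Matrix.trace_units_conj, m]
    simp
  · rw [e, e, m, h.inertia σ hσ, Matrix.trace_units_conj]
    simp

/-- The congruences of strict ordinarity are invariant under conjugation. -/
theorem StrictEq.conj (h : StrictEq p M P σ₀) (g : (Matrix (Fin 2) (Fin 2) A)ˣ)
    (hN : ∀ σ, N σ = g * M σ * (↑g⁻¹ : Matrix (Fin 2) (Fin 2) A)) : StrictEq p N P σ₀ := by
  intro σ hσ n a ha
  have e : N σ₀ - 1 = g * (M σ₀ - 1) * (↑g⁻¹ : Matrix (Fin 2) (Fin 2) A) := by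
    rw [hN, mul_sub, sub_mul, mul_one, Units.mul_inv]
  have m : (N σ₀ - 1) * N σ = g * ((M σ₀ - 1) * M σ) * (↑g⁻¹ : Matrix (Fin 2) (Fin 2) A) := by
    rw [e, hN]
    simp only [mul_assoc, Units.inv_mul_cancel_left]
  rw [m, Matrix.trace_units_conj, e, Matrix.trace_units_conj, hN, Matrix.trace_units_conj]
  exact h σ hσ n a ha

/-- Entrywise maps commute with subtracting the identity. -/
theorem map_sub_one (f : A →+* B) (X : Matrix (Fin 2) (Fin 2) A) :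
    (X - 1).map f = X.map f - 1 := by
  show f.mapMatrix (X - 1) = f.mapMatrix X - 1
  rw [map_sub, map_one]

/-- Entrywise maps commute with the trace. -/
theorem map_trace (f : A →+* B) (X : Matrix (Fin 2) (Fin 2) A) :
    (X.map f).trace = f X.trace := (AddMonoidHom.map_trace f.toAddMonoidHom X).symm

/-- The equations of ordinarity are preserved by ring homomorphisms. -/
theorem OrdEq.map (h : OrdEq M P σ₀) (f : A →+* B) {N' : GQ → Matrix (Fin 2) (Fin 2) B}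
    (hN : ∀ σ, N' σ = (M σ).map f) : OrdEq N' P σ₀ := by
  have e : ∀ σ, N' σ - 1 = f.mapMatrix (M σ - 1) := fun σ => by
    rw [hN, ← map_sub_one]; rfl
  have ht : (N' σ₀ - 1).trace = f (M σ₀ - 1).trace := by
    rw [e, RingHom.mapMatrix_apply, map_trace]
  have hs : ∀ (c : A) (X : Matrix (Fin 2) (Fin 2) A), f c • f.mapMatrix X = f.mapMatrix (c • X) :=
    fun c X => by ext i j; simp
  refine ⟨?_, fun σ hσ => ?_, fun σ hσ => ?_⟩
  · rw [e, ← RingHom.map_det, h.det_eq, map_zero]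
  · rw [ht, e, hN σ, ← RingHom.mapMatrix_apply, ← map_mul, ← map_mul, ← map_mul, hs,
      h.stable σ hσ]
  · rw [ht, e, e, ← map_mul, hs, h.inertia σ hσ]

/-- The two sides of the strict congruence commute with ring maps. -/
theorem strictExpr_map (f : A →+* B) {N' : GQ → Matrix (Fin 2) (Fin 2) B}
    (hN : ∀ σ, N' σ = (M σ).map f) (σ : GQ) :
    ((N' σ₀ - 1) * N' σ).trace = f ((M σ₀ - 1) * M σ).trace ∧
      (N' σ₀ - 1).trace * (N' σ).trace - ((N' σ₀ - 1) * N' σ).trace =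
        f ((M σ₀ - 1).trace * (M σ).trace - ((M σ₀ - 1) * M σ).trace) := by
  rw [hN, hN, ← map_sub_one, ← Matrix.map_mul, map_trace, map_trace, map_trace, ← map_mul,
    ← map_sub]
  exact ⟨rfl, rfl⟩

/-- The congruences of strict ordinarity are preserved by ring homomorphisms. -/
theorem StrictEq.map (h : StrictEq p M P σ₀) (f : A →+* B) {N' : GQ → Matrix (Fin 2) (Fin 2) B}
    (hN : ∀ σ, N' σ = (M σ).map f) : StrictEq p N' P σ₀ := by
  intro σ hσ n a ha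
  obtain ⟨e₁, e₂⟩ := strictExpr_map (σ₀ := σ₀) f hN σ
  rw [e₂, e₁, ← map_natCast f a, ← map_mul, ← map_sub, ← map_natCast f (p ^ n)]
  obtain ⟨t, ht⟩ := Ideal.mem_span_singleton'.mp (h σ hσ n a ha)
  exact Ideal.mem_span_singleton'.mpr ⟨f t, by rw [← map_mul, ht]⟩

variable [IsLocalRing A] {ρ : GaloisRepAdic A}

/-- The line of the first basis vector is cut out by the second coordinate. -/
theorem mem_span_basis_iff (b : Basis (Fin 2) A ρ.V) (v : ρ.V) :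
    v ∈ A ∙ b 0 ↔ b.repr v 1 = 0 := by
  constructor
  · intro h
    obtain ⟨c, rfl⟩ := Submodule.mem_span_singleton.mp h
    simp
  · intro h
    rw [← b.sum_repr v, Fin.sum_univ_two, h, zero_smul, add_zero]
    exact Submodule.smul_mem _ _ (Submodule.mem_span_singleton_self _)

/-- Coordinates of `ρ σ v` in terms of the matrix of `σ`. -/
theorem repr_apply (b : Basis (Fin 2) A ρ.V) (σ : GQ) (v : ρ.V) (i : Fin 2) :
    b.repr (ρ.ρ σ v) i = repMat ρ b σ i 0 * b.repr v 0 + repMat ρ b σ i 1 * b.repr v 1 := by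
  have h := congrFun (LinearMap.toMatrix_mulVec_repr b b (ρ.ρ σ) v) i
  simp only [Matrix.mulVec, dotProduct, Fin.sum_univ_two] at h
  exact h.symm

/-- The trace of `ρ σ₀ - 1` is a unit. -/
theorem trace_sub_one_isUnit (hdet : ρ.DetIsCyclotomic p) (b : Basis (Fin 2) A ρ.V)
    (hσ : ∀ μ : AlgebraicClosure ℚ, μ ^ p ^ 1 = 1 → σ₀ μ = μ ^ 2)
    (h0 : (repMat ρ b σ₀ - 1).det = 0) : IsUnit (repMat ρ b σ₀ - 1).trace := by
  rw [detIsCyclotomic_iff b] at hdet
  have h1 := hdet.2 1 σ₀ 2 hσ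
  have h2 : (repMat ρ b σ₀ - 1).trace - 1 = (repMat ρ b σ₀).det - ((2 : ℕ) : A) := by
    simp only [Matrix.det_fin_two, Matrix.trace_fin_two, Matrix.sub_apply] at h0 ⊢
    simp at h0 ⊢
    linear_combination -h0
  by_contra hn
  have h3 : (repMat ρ b σ₀ - 1).trace - 1 ∈ maximalIdeal A := by
    rw [h2]
    refine (Ideal.span_singleton_le_iff_mem _).mpr ?_ h1
    rw [pow_one]
    exact hdet.1
  have : (1 : A) ∈ maximalIdeal A := by
    simpa using Submodule.sub_mem _ (show (repMat ρ b σ₀ - 1).trace ∈ maximalIdeal A from hn) h3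
  exact this isUnit_one

/-- Ordinarity gives the equations, in every basis. -/
theorem ordEq_of_line (b' : Basis (Fin 2) A ρ.V) {L : Submodule A ρ.V}
    {b : Basis (Fin 2) A ρ.V} (hL : L = A ∙ b 0)
    (hD : ∀ σ ∈ P.decompositionSubgroup ℚ, ∀ v ∈ L, ρ.ρ σ v ∈ L)
    (hI : ∀ σ ∈ P.inertiaSubgroupIn ℚ, ∀ v : ρ.V, ρ.ρ σ v - v ∈ L)
    (hσ₀ : σ₀ ∈ P.inertiaSubgroupIn ℚ) :
    OrdEq (repMat ρ b') P σ₀ ∧
      ((∀ σ ∈ P.decompositionSubgroup ℚ, ∃ x z : A, (∀ w ∈ L, ρ.ρ σ w = x • w) ∧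
        (∀ v : ρ.V, ρ.ρ σ v - z • v ∈ L) ∧
          ∀ (n a : ℕ), (∀ μ : AlgebraicClosure ℚ, μ ^ p ^ n = 1 → σ μ = μ ^ a) →
            x - (a : A) * z ∈ Ideal.span {((p ^ n : ℕ) : A)}) →
        StrictEq p (repMat ρ b') P σ₀) := by
  obtain ⟨g, hg⟩ := repMat_change ρ b b'
  set M := repMat ρ b with hM
  have hb0 : b 0 ∈ L := hL ▸ Submodule.mem_span_singleton_self _
  have h10 : ∀ σ ∈ P.decompositionSubgroup ℚ, M σ 1 0 = 0 := fun σ hσ => by
    have h := hD σ hσ _ hb0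
    rw [hL, mem_span_basis_iff, repr_apply] at h
    simpa using h
  have hrow : ∀ σ ∈ P.inertiaSubgroupIn ℚ, (M σ - 1) 1 0 = 0 ∧ (M σ - 1) 1 1 = 0 := fun σ hσ => by
    have h0 := hI σ hσ (b 0)
    have h1 := hI σ hσ (b 1)
    rw [hL, mem_span_basis_iff, map_sub, Finsupp.sub_apply, repr_apply] at h0 h1
    constructor
    · simpa using h0
    · simpa using h1
  obtain ⟨r0, r1⟩ := hrow σ₀ hσ₀
  constructor
  · refine OrdEq.conj ⟨?_, fun σ hσ => ?_, fun σ hσ => ?_⟩ g hg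
    · rw [Matrix.det_fin_two, r0, r1]; ring
    · have h := h10 σ hσ
      ext i j
      fin_cases i <;> fin_cases j <;>
        simp only [Fin.zero_eta, Fin.mk_one, Matrix.mul_apply, Fin.sum_univ_two, Matrix.smul_apply,
          Matrix.trace_fin_two, smul_eq_mul, r0, r1, h] <;> ring
    · obtain ⟨s0, s1⟩ := hrow σ hσ
      ext i j
      fin_cases i <;> fin_cases j <;>
        simp only [Fin.zero_eta, Fin.mk_one, Matrix.mul_apply, Fin.sum_univ_two, Matrix.smul_apply,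
          Matrix.trace_fin_two, smul_eq_mul, r0, r1, s0, s1] <;> ring
  · intro hs
    refine StrictEq.conj (fun σ hσ n a ha => ?_) g hg
    obtain ⟨x, z, hx, hz, hxz⟩ := hs σ hσ
    have ex : M σ 0 0 = x := by
      have h := congrArg (fun v => b.repr v 0) (hx _ hb0)
      simpa [repr_apply] using h
    have ez : M σ 1 1 = z := by
      have h := hz (b 1)
      rw [hL, mem_span_basis_iff, map_sub, Finsupp.sub_apply, repr_apply] at h
      simpa [sub_eq_zero] using h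
    have key : ((M σ₀ - 1) * M σ).trace -
        (a : A) * ((M σ₀ - 1).trace * (M σ).trace - ((M σ₀ - 1) * M σ).trace) =
          (M σ₀ - 1) 0 0 * (x - (a : A) * z) := by
      simp only [Matrix.trace_fin_two, Matrix.mul_apply, Fin.sum_univ_two, r0, r1, h10 σ hσ, ex, ez]
      ring
    rw [key]
    exact Ideal.mul_mem_left _ _ (hxz n a ha)

/-- The equations give ordinarity. -/
theorem line_of_ordEq (b₁ : Basis (Fin 2) A ρ.V) (h : OrdEq (repMat ρ b₁) P σ₀)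
    (hu : IsUnit (repMat ρ b₁ σ₀ - 1).trace) :
    ∃ L : Submodule A ρ.V, (∃ b : Basis (Fin 2) A ρ.V, L = A ∙ b 0) ∧
      (∀ σ ∈ P.decompositionSubgroup ℚ, ∀ v ∈ L, ρ.ρ σ v ∈ L) ∧
      (∀ σ ∈ P.inertiaSubgroupIn ℚ, ∀ v : ρ.V, ρ.ρ σ v - v ∈ L) ∧
      (StrictEq p (repMat ρ b₁) P σ₀ → ∀ σ ∈ P.decompositionSubgroup ℚ, ∃ x z : A,
        (∀ w ∈ L, ρ.ρ σ w = x • w) ∧ (∀ v : ρ.V, ρ.ρ σ v - z • v ∈ L) ∧
          ∀ (n a : ℕ), (∀ μ : AlgebraicClosure ℚ, μ ^ p ^ n = 1 → σ μ = μ ^ a) →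
            x - (a : A) * z ∈ Ideal.span {((p ^ n : ℕ) : A)}) := by
  set N₀ := repMat ρ b₁ σ₀ - 1 with hN₀
  obtain ⟨G, hG, hG1⟩ : ∃ G : Matrix (Fin 2) (Fin 2) A, IsUnit G.det ∧
      (N₀ * G) 0 0 = N₀.trace * G 0 0 ∧ (N₀ * G) 1 0 = N₀.trace * G 1 0 := by
    have h0 := h.det_eq
    rw [← hN₀, Matrix.det_fin_two] at h0
    rw [Matrix.trace_fin_two] at hu
    rcases IsLocalRing.isUnit_or_isUnit_of_isUnit_add hu with hu0 | hu1
    · refine ⟨!![N₀ 0 0, 0; N₀ 1 0, 1], by simpa [Matrix.det_fin_two] using hu0, ?_, ?_⟩ <;>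
        simp [Matrix.mul_apply, Fin.sum_univ_two, Matrix.trace_fin_two]
      · linear_combination -h0
      · ring
    · refine ⟨!![N₀ 0 1, 1; N₀ 1 1, 0], by simpa [Matrix.det_fin_two] using hu1, ?_, ?_⟩ <;>
        simp [Matrix.mul_apply, Fin.sum_univ_two, Matrix.trace_fin_two]
      · ring
      · linear_combination -h0
  have hGu : IsUnit G := (Matrix.isUnit_iff_isUnit_det G).mpr hG
  let e : ρ.V ≃ₗ[A] ρ.V :=
    LinearEquiv.ofLinearMap (Matrix.toLin b₁ b₁ G) (Matrix.toLin b₁ b₁ G⁻¹)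
      (by rw [← Matrix.toLin_mul, Matrix.mul_nonsing_inv _ hG, Matrix.toLin_one])
      (by rw [← Matrix.toLin_mul, Matrix.nonsing_inv_mul _ hG, Matrix.toLin_one])
  let b := b₁.map e
  have hconj : ∀ σ, repMat ρ b σ = G⁻¹ * repMat ρ b₁ σ * G := by
    intro σ
    have hb : b₁.toMatrix b = G := by
      ext i j
      rw [Basis.toMatrix_apply, Basis.map_apply]
      show b₁.repr (Matrix.toLin b₁ b₁ G (b₁ j)) i = _
      rw [Matrix.toLin_self, map_sum]
      fin_cases i <;> simp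
    have hb' : b.toMatrix b₁ = G⁻¹ := by
      refine (Matrix.inv_eq_left_inv ?_).symm
      rw [← hb, Basis.toMatrix_mul_toMatrix_flip]
    have hmain := basis_toMatrix_mul_linearMap_toMatrix_mul_basis_toMatrix b b₁ b b₁ (ρ.ρ σ)
    rw [hb, hb'] at hmain
    exact hmain.symm
  let gU : (Matrix (Fin 2) (Fin 2) A)ˣ :=
    ⟨G⁻¹, G, Matrix.nonsing_inv_mul _ hG, Matrix.mul_nonsing_inv _ hG⟩
  have hord : OrdEq (repMat ρ b) P σ₀ := h.conj gU hconj
  set M := repMat ρ b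
  have htr : (M σ₀ - 1).trace = N₀.trace := by
    rw [show M σ₀ - 1 = (gU : Matrix (Fin 2) (Fin 2) A) * N₀ * (↑gU⁻¹ : Matrix (Fin 2) (Fin 2) A) by
      rw [hN₀, mul_sub, sub_mul, mul_one, Units.mul_inv, hconj]; rfl, Matrix.trace_units_conj]
  have hn : (M σ₀ - 1) 0 0 = N₀.trace ∧ (M σ₀ - 1) 1 0 = 0 := by
    have e1 : M σ₀ - 1 = G⁻¹ * (N₀ * G) := by
      rw [hconj, hN₀, sub_mul, one_mul, mul_sub, Matrix.nonsing_inv_mul _ hG, mul_assoc]
    have e2 : ∀ i, (G⁻¹ * (N₀ * G)) i 0 = N₀.trace * (1 : Matrix (Fin 2) (Fin 2) A) i 0 := by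
      intro i
      rw [← Matrix.nonsing_inv_mul _ hG, Matrix.mul_apply, Matrix.mul_apply, Fin.sum_univ_two,
        Fin.sum_univ_two, hG1.1, hG1.2]
      ring
    rw [e1, e2, e2]
    simp
  have hn11 : (M σ₀ - 1) 1 1 = 0 := by
    have hd := hord.det_eq
    rw [Matrix.det_fin_two, hn.1, hn.2, mul_zero, sub_zero] at hd
    exact hu.mul_right_eq_zero.mp hd
  have hrow : ∀ σ ∈ P.inertiaSubgroupIn ℚ, ∀ j, (M σ - 1) 1 j = 0 := by
    intro σ hσ j
    have h1 := congrFun (congrFun (hord.inertia σ hσ) 1) j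
    simp only [Matrix.mul_apply, Fin.sum_univ_two, Matrix.smul_apply, smul_eq_mul, hn.2, hn11,
      zero_mul, add_zero, htr] at h1
    exact hu.mul_right_eq_zero.mp h1.symm
  have h10 : ∀ σ ∈ P.decompositionSubgroup ℚ, M σ 1 0 = 0 := by
    intro σ hσ
    have h1 := congrFun (congrFun (hord.stable σ hσ) 1) 0
    simp only [Matrix.mul_apply, Fin.sum_univ_two, Matrix.smul_apply, smul_eq_mul, hn.1, hn.2,
      hn11, zero_mul, add_zero, mul_zero, htr] at h1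
    rw [mul_comm (M σ 1 0), ← mul_assoc] at h1
    exact (hu.mul hu).mul_right_eq_zero.mp h1.symm
  refine ⟨A ∙ b 0, ⟨b, rfl⟩, fun σ hσ v hv => ?_, fun σ hσ v => ?_, fun hs σ hσ => ?_⟩
  · rw [mem_span_basis_iff] at hv ⊢
    rw [repr_apply, hv, h10 σ hσ, zero_mul, mul_zero, add_zero]
  · rw [mem_span_basis_iff, map_sub, Finsupp.sub_apply, repr_apply]
    have e0 := hrow σ hσ 0
    have e1 := hrow σ hσ 1
    simp only [Matrix.sub_apply, Matrix.one_apply] at e0 e1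
    simp at e0
    rw [e0]
    simp at e1
    linear_combination (b.repr v 1) * e1
  · have hs' : StrictEq p M P σ₀ := hs.conj gU hconj
    refine ⟨M σ 0 0, M σ 1 1, fun w hw => ?_, fun v => ?_, fun n a ha => ?_⟩
    · rw [mem_span_basis_iff] at hw
      refine b.ext_elem fun i => ?_
      rw [repr_apply, hw, map_smul, Finsupp.smul_apply, smul_eq_mul, mul_zero, add_zero]
      fin_cases i
      · rfl
      · simp only [Fin.mk_one, hw, mul_zero]
        show M σ 1 0 * _ = 0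
        rw [h10 σ hσ, zero_mul]
    · rw [mem_span_basis_iff, map_sub, Finsupp.sub_apply, repr_apply, h10 σ hσ, map_smul,
        Finsupp.smul_apply, smul_eq_mul]
      ring
    · have key : ((M σ₀ - 1) * M σ).trace -
          (a : A) * ((M σ₀ - 1).trace * (M σ).trace - ((M σ₀ - 1) * M σ).trace) =
            N₀.trace * (M σ 0 0 - (a : A) * M σ 1 1) := by
        rw [htr]
        simp only [Matrix.trace_fin_two, Matrix.mul_apply, Fin.sum_univ_two, hn.1, hn.2, hn11,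
          h10 σ hσ]
        ring
      have h1 := hs' σ hσ n a ha
      rw [key] at h1
      exact (Ideal.unit_mul_mem_iff_mem _ hu).mp h1

variable (p) in
/-- The auxiliary inertia element exists for odd `p`. -/
theorem exists_sigma₀ [Fact p.Prime] (hp2 : p ≠ 2) (hP : P.LiesOverPrime p) :
    ∃ σ ∈ P.inertiaSubgroupIn ℚ, ∀ μ : AlgebraicClosure ℚ, μ ^ p ^ 1 = 1 → σ μ = μ ^ 2 :=
  LocalInertia.exists_inertia_pow_on_rootsOfUnity hP Fact.out 1
    ((Nat.coprime_primes Nat.prime_two Fact.out).mpr (Ne.symm hp2))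

/-- Ordinarity in terms of equations. -/
theorem isOrdinaryAt_iff [Fact p.Prime] (hp2 : p ≠ 2) (hdet : ρ.DetIsCyclotomic p)
    (b : Basis (Fin 2) A ρ.V) :
    ρ.IsOrdinaryAt p ↔ ∀ P : ValuationSubring (AlgebraicClosure ℚ), P.LiesOverPrime p →
      ∀ σ₀ ∈ P.inertiaSubgroupIn ℚ, (∀ μ : AlgebraicClosure ℚ, μ ^ p ^ 1 = 1 → σ₀ μ = μ ^ 2) →
        OrdEq (repMat ρ b) P σ₀ := by
  refine ⟨fun h P hP σ₀ hσ₀ _ => ?_, fun h P hP => ?_⟩
  · obtain ⟨L, ⟨b', hL⟩, hD, hI⟩ := h P hP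
    exact (ordEq_of_line (p := p) b hL hD hI hσ₀).1
  · obtain ⟨σ₀, hσ₀, hσ₀μ⟩ := exists_sigma₀ p hp2 hP
    have he := h P hP σ₀ hσ₀ hσ₀μ
    obtain ⟨L, hb, hD, hI, -⟩ :=
      line_of_ordEq (p := p) b he (trace_sub_one_isUnit hdet b hσ₀μ he.det_eq)
    exact ⟨L, hb, hD, hI⟩

/-- Strict ordinarity in terms of equations. -/
theorem isStrictOrdinaryAt_iff [Fact p.Prime] (hp2 : p ≠ 2) (hdet : ρ.DetIsCyclotomic p)
    (b : Basis (Fin 2) A ρ.V) :
    ρ.IsStrictOrdinaryAt p ↔ ∀ P : ValuationSubring (AlgebraicClosure ℚ), P.LiesOverPrime p →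
      ∀ σ₀ ∈ P.inertiaSubgroupIn ℚ, (∀ μ : AlgebraicClosure ℚ, μ ^ p ^ 1 = 1 → σ₀ μ = μ ^ 2) →
        OrdEq (repMat ρ b) P σ₀ ∧ StrictEq p (repMat ρ b) P σ₀ := by
  refine ⟨fun h P hP σ₀ hσ₀ _ => ?_, fun h => ⟨hdet.1, fun P hP => ?_⟩⟩
  · obtain ⟨L, ⟨b', hL⟩, hD, hI, hs⟩ := h.2 P hP
    obtain ⟨h1, h2⟩ := ordEq_of_line (p := p) b hL hD hI hσ₀
    exact ⟨h1, h2 hs⟩
  · obtain ⟨σ₀, hσ₀, hσ₀μ⟩ := exists_sigma₀ p hp2 hP
    obtain ⟨he, hs⟩ := h P hP σ₀ hσ₀ hσ₀μ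
    obtain ⟨L, hb, hD, hI, hstrict⟩ :=
      line_of_ordEq (p := p) b he (trace_sub_one_isUnit hdet b hσ₀μ he.det_eq)
    exact ⟨L, hb, hD, hI, hstrict hs⟩

end Fermat.Agent.DefCond
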